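import Fermat.Agent.EllIsogeny.Velu.Hom
import Fermat.Agent.EllIsogeny.VarChange
import Fermat.Prelude.Def_FLTPrelim_GaloisRep
import Mathlib.FieldTheory.Galois.Infinite
import Mathlib.GroupTheory.OrderOfElement
import Mathlib.Algebra.Algebra.Rat

/-!
Descent of Vélu's quotient to `ℚ`.
-/

set_option autoImplicit false
set_option linter.unusedSectionVars false

open WeierstrassCurve WeierstrassCurve.Affine WeierstrassCurve.Affine.Point
open scoped WeierstrassCurve.Affine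

namespace FLTA.EllIsogeny.Velu

local notation "ℚbar" => AlgebraicClosure ℚ

instance isShortNF_baseChange {F K : Type*} [Field F] [Field K] [Algebra F K]
    (W : WeierstrassCurve F) [W.IsShortNF] : (W⁄K).IsShortNF :=
  ⟨by simp [WeierstrassCurve.a₁_of_isShortNF], by simp,
    by simp [WeierstrassCurve.a₃_of_isShortNF]⟩

theorem qbar_galois : IsGalois ℚ (AlgebraicClosure ℚ) :=
  haveI : Algebra.IsAlgebraic ℚ (AlgebraicClosure ℚ) := AlgebraicClosure.isAlgebraic ℚ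
  isGalois_iff.mpr ⟨inferInstance, normal_iff.mpr fun x =>
    ⟨(Algebra.IsAlgebraic.isAlgebraic x).isIntegral, IsAlgClosed.splits _⟩⟩

section

variable {W : WeierstrassCurve ℚ}

theorem px_smul (σ : ℚbar ≃ₐ[ℚ] ℚbar) (P : (W⁄ℚbar).Point) : px (σ • P) = σ (px P) := by
  rcases P with _ | ⟨x, y, h⟩
  · exact (_root_.map_zero σ).symm
  · rw [algEquiv_smul_def, Affine.Point.map_some]; simp

theorem py_smul (σ : ℚbar ≃ₐ[ℚ] ℚbar) (P : (W⁄ℚbar).Point) : py (σ • P) = σ (py P) := by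
  rcases P with _ | ⟨x, y, h⟩
  · exact (_root_.map_zero σ).symm
  · rw [algEquiv_smul_def, Affine.Point.map_some]; simp

end

/-- The quotient for a curve in short normal form. -/
theorem exists_quotient_short (E : WeierstrassCurve ℚ) [E.IsShortNF] [E.IsElliptic]
    (N : AddSubgroup (E⁄ℚbar).Point) [Finite N] (hodd : Odd (Nat.card N))
    (hstab : ∀ σ : ℚbar ≃ₐ[ℚ] ℚbar, ∀ x ∈ N, σ • x ∈ N) :
    ∃ (E' : WeierstrassCurve ℚ) (_ : E'.IsElliptic) (φ : (E⁄ℚbar).Point →+ (E'⁄ℚbar).Point),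
      φ.ker = N ∧ ∀ (σ : ℚbar ≃ₐ[ℚ] ℚbar) (P : (E⁄ℚbar).Point), φ (σ • P) = σ • φ P := by
  classical
  haveI := qbar_galois
  haveI : Fintype N := Fintype.ofFinite N
  haveI : (E⁄ℚbar).IsElliptic := inferInstanceAs (E.map (algebraMap ℚ ℚbar)).IsElliptic
  have hy : ∀ T ∈ N, T ≠ 0 → py T ≠ 0 := by
    intro T hT h0 h
    have h2 : T + T = 0 := by
      rw [add_eq_zero_iff_eq_neg]
      exact ext_of_coords h0 (neg_ne_zero.mpr h0) (by simp) (by simp [h])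
    have hord : addOrderOf (⟨T, hT⟩ : N) = 2 :=
      addOrderOf_eq_prime (Subtype.ext (by simpa [two_nsmul] using h2))
        (by simpa using h0)
    have hdvd := addOrderOf_dvd_natCard (⟨T, hT⟩ : N)
    rw [hord] at hdvd
    exact (Nat.not_even_iff_odd.mpr hodd) (even_iff_two_dvd.mpr hdvd)
  -- the permutation of `N` induced by `σ`
  let π : (ℚbar ≃ₐ[ℚ] ℚbar) → (N ≃ N) := fun σ =>
    { toFun := fun T => ⟨σ • (T : (E⁄ℚbar).Point), hstab σ T T.2⟩
      invFun := fun T => ⟨σ⁻¹ • (T : (E⁄ℚbar).Point), hstab σ⁻¹ T T.2⟩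
      left_inv := fun T => Subtype.ext (inv_smul_smul σ (T : (E⁄ℚbar).Point))
      right_inv := fun T => Subtype.ext (smul_inv_smul σ (T : (E⁄ℚbar).Point)) }
  have hπ : ∀ σ (T : N), T ∈ nzero N ↔ π σ T ∈ nzero N := by
    intro σ T
    simp only [mem_nzero, π, Equiv.coe_fn_mk, ne_eq, smul_eq_zero_iff_eq]
  have ha₄ : ∀ σ : ℚbar ≃ₐ[ℚ] ℚbar, σ (E⁄ℚbar).a₄ = (E⁄ℚbar).a₄ := fun σ => σ.commutes E.a₄
  have ha₆ : ∀ σ : ℚbar ≃ₐ[ℚ] ℚbar, σ (E⁄ℚbar).a₆ = (E⁄ℚbar).a₆ := fun σ => σ.commutes E.a₆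
  have hwv : ∀ σ (T : N), σ (wv N T) = wv N (π σ T) := by
    intro σ T
    simp only [wv, dcubF, π, Equiv.coe_fn_mk, px_smul, map_add, map_mul, map_pow, map_ofNat, ha₄ σ]
  have hwu : ∀ σ (T : N), σ (wu N T) = wu N (π σ T) := by
    intro σ T
    simp only [wu, π, Equiv.coe_fn_mk, py_smul, map_mul, map_pow, map_ofNat]
  have hV : ∀ σ : ℚbar ≃ₐ[ℚ] ℚbar, σ (bigV N) = bigV N := by
    intro σ
    rw [bigV, map_sum]
    exact Finset.sum_equiv (π σ) (hπ σ) fun T _ => hwv σ T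
  have hW : ∀ σ : ℚbar ≃ₐ[ℚ] ℚbar, σ (bigW N) = bigW N := by
    intro σ
    rw [bigW, map_sum]
    refine Finset.sum_equiv (π σ) (hπ σ) fun T _ => ?_
    rw [map_add, map_mul, hwv, hwu]
    simp only [π, Equiv.coe_fn_mk, px_smul]
  obtain ⟨A, hA⟩ := (InfiniteGalois.mem_range_algebraMap_iff_fixed
    ((E⁄ℚbar).a₄ - 5 * bigV N)).mpr fun σ => by rw [map_sub, map_mul, ha₄ σ, hV σ, map_ofNat]
  obtain ⟨B, hB⟩ := (InfiniteGalois.mem_range_algebraMap_iff_fixed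
    ((E⁄ℚbar).a₆ - 7 * bigW N)).mpr fun σ => by rw [map_sub, map_mul, ha₆ σ, hW σ, map_ofNat]
  let E' : WeierstrassCurve ℚ := ⟨0, 0, 0, A, B⟩
  haveI : E'.IsShortNF := ⟨rfl, rfl, rfl⟩
  have hE' : IsVeluCurve N (E'⁄ℚbar) := ⟨inferInstance, hA, hB⟩
  haveI hell : (E'⁄ℚbar).IsElliptic := isElliptic_velu hE' hy
  haveI : E'.IsElliptic := by
    rw [WeierstrassCurve.isElliptic_iff, isUnit_iff_ne_zero]
    intro h
    have := (E'⁄ℚbar).isUnit_Δ.ne_zero
    exact this ((WeierstrassCurve.map_Δ E' (algebraMap ℚ ℚbar)).trans (by rw [h, _root_.map_zero]))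
  refine ⟨E', ‹_›, veluHom hE' hy, veluHom_ker hE' hy, fun σ P => ?_⟩
  symm
  have hve : ∀ Q : (E⁄ℚbar).Point, veX N (σ • Q) = σ (veX N Q) ∧
      veY N (σ • Q) = σ (veY N Q) := by
    intro Q
    constructor
    · rw [veX, veX, map_sum]
      refine (Fintype.sum_equiv (π σ) _ _ fun T => ?_).symm
      simp only [π, Equiv.coe_fn_mk, map_sub, ← px_smul, algEquiv_smul_def, map_add]
    · rw [veY, veY, map_sum]
      refine (Fintype.sum_equiv (π σ) _ _ fun T => ?_).symm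
      simp only [π, Equiv.coe_fn_mk, ← py_smul, algEquiv_smul_def, map_add]
  have hcomm : ∀ Q : (E⁄ℚbar).Point,
      σ • vePt (E'⁄ℚbar) N Q = vePt (E'⁄ℚbar) N (σ • Q) := by
    intro Q
    have hmem : σ • Q ∈ N ↔ Q ∈ N :=
      ⟨fun h => by simpa using hstab σ⁻¹ _ h, fun h => hstab σ Q h⟩
    have hns : (E'⁄ℚbar).Nonsingular (veX N (σ • Q)) (veY N (σ • Q)) ↔
        (E'⁄ℚbar).Nonsingular (veX N Q) (veY N Q) := by
      rw [(hve Q).1, (hve Q).2]
      exact E'.toAffine.baseChange_nonsingular (f := σ.toAlgHom) σ.injective _ _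
    by_cases hc : (E'⁄ℚbar).Nonsingular (veX N Q) (veY N Q) ∧ Q ∉ N
    · rw [vePt, dif_pos hc, vePt, dif_pos ⟨hns.mpr hc.1, fun h => hc.2 (hmem.mp h)⟩,
        algEquiv_smul_def, Affine.Point.map_some, Affine.Point.some.injEq]
      exact ⟨(hve Q).1.symm, (hve Q).2.symm⟩
    · rw [vePt, dif_neg hc, vePt, dif_neg fun h => hc ⟨hns.mp h.1, fun h' => h.2 (hmem.mpr h')⟩,
        smul_zero]
  exact veluHom_comm hE' hy (DistribMulAction.toAddMonoidHom _ σ) (MulAction.injective σ)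
    (DistribMulAction.toAddMonoidHom _ σ) hcomm P

end FLTA.EllIsogeny.Velu
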