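import Fermat.Agent.EllIsogeny.Velu.RatOff
import Mathlib.AlgebraicGeometry.EllipticCurve.NormalForms
import Mathlib.AlgebraicGeometry.EllipticCurve.Affine.Point
import Mathlib.Order.Filter.Cofinite

/-!
Cofinitely many points of a short Weierstrass curve.
-/

set_option autoImplicit false
set_option linter.unusedSectionVars false
set_option linter.deprecated false

open Polynomial WeierstrassCurve Filter

namespace FLTA.EllIsogeny.Velu

variable {K : Type*} [Field K] {E : Affine K}

/-- `x`-coordinate, with value `0` at infinity. -/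
def px : E.Point → K
  | 0 => 0
  | .some x _ _ => x

/-- `y`-coordinate, with value `0` at infinity. -/
def py : E.Point → K
  | 0 => 0
  | .some _ y _ => y

@[simp] theorem px_zero : px (0 : E.Point) = 0 := rfl
@[simp] theorem py_zero : py (0 : E.Point) = 0 := rfl
@[simp] theorem px_some {x y : K} (h : E.Nonsingular x y) : px (.some x y h) = x := rfl
@[simp] theorem py_some {x y : K} (h : E.Nonsingular x y) : py (.some x y h) = y := rfl

@[simp] theorem px_neg (P : E.Point) : px (-P) = px P := by
  cases P <;> rfl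

theorem exists_eq_some {P : E.Point} (hP : P ≠ 0) :
    ∃ h : E.Nonsingular (px P) (py P), P = .some (px P) (py P) h := by
  cases P with
  | zero => exact absurd rfl hP
  | some x y h => exact ⟨h, rfl⟩

theorem ext_of_coords {P Q : E.Point} (hP : P ≠ 0) (hQ : Q ≠ 0) (hx : px P = px Q)
    (hy : py P = py Q) : P = Q := by
  obtain ⟨h, eP⟩ := exists_eq_some hP
  obtain ⟨h', eQ⟩ := exists_eq_some hQ
  rw [eP, eQ, Affine.Point.some.injEq]
  exact ⟨hx, hy⟩

variable [E.IsShortNF]

@[simp] theorem sa₁ : E.a₁ = 0 := WeierstrassCurve.a₁_of_isShortNF E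
@[simp] theorem sa₂ : E.a₂ = 0 := WeierstrassCurve.a₂_of_isShortNF E
@[simp] theorem sa₃ : E.a₃ = 0 := WeierstrassCurve.a₃_of_isShortNF E

/-- `f(x) = x³ + a x + b`. -/
def cubF (E : Affine K) (x : K) : K := x ^ 3 + E.a₄ * x + E.a₆

/-- `f'(x) = 3x² + a`. -/
def dcubF (E : Affine K) (x : K) : K := 3 * x ^ 2 + E.a₄

theorem equation_short {x y : K} : E.Equation x y ↔ y ^ 2 = cubF E x := by
  rw [Affine.equation_iff]
  simp [cubF]

theorem py_sq {P : E.Point} (hP : P ≠ 0) : py P ^ 2 = cubF E (px P) := by
  obtain ⟨h, -⟩ := exists_eq_some hP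
  exact equation_short.mp h.1

@[simp] theorem negY_short (x y : K) : E.negY x y = -y := by simp

@[simp] theorem py_neg (P : E.Point) : py (-P) = -py P := by
  cases P with
  | zero => simp [← Affine.Point.zero_def]
  | some x y h => simp

section Point

variable [DecidableEq K]

/-- Coordinates of a sum of two points with distinct abscissae. -/
theorem add_coords {P Q : E.Point} (hP : P ≠ 0) (hQ : Q ≠ 0) (hx : px P ≠ px Q) :
    P + Q ≠ 0 ∧
    px (P + Q) = ((py P - py Q) / (px P - px Q)) ^ 2 - px P - px Q ∧
    py (P + Q) = -((py P - py Q) / (px P - px Q) * (px (P + Q) - px P) + py P) := by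
  rcases P with _ | ⟨x₁, y₁, h₁⟩
  · exact absurd rfl hP
  rcases Q with _ | ⟨x₂, y₂, h₂⟩
  · exact absurd rfl hQ
  simp only [px_some, py_some] at hx ⊢
  rw [Affine.Point.add_of_X_ne hx]
  refine ⟨Affine.Point.some_ne_zero _, ?_, ?_⟩
  · simp [Affine.slope_of_X_ne hx]
  · simp [Affine.slope_of_X_ne hx, Affine.addY]

end Point

theorem finite_px_eq (c : K) : {P : E.Point | px P = c}.Finite := by
  classical
  by_cases h : ∃ y, E.Nonsingular c y
  · obtain ⟨y, hy⟩ := h
    refine (Set.toFinite ({0, .some c y hy, -.some c y hy} : Set E.Point)).subset ?_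
    intro P hP
    rcases P with _ | ⟨x, y', h'⟩
    · exact Or.inl rfl
    · simp only [Set.mem_setOf_eq, px_some] at hP
      rcases (Affine.Point.X_eq_iff (h₁ := h') (h₂ := hy)).mp hP with e | e
      · exact Or.inr (Or.inl e)
      · exact Or.inr (Or.inr e)
  · refine (Set.finite_singleton (0 : E.Point)).subset ?_
    intro P hP
    rcases P with _ | ⟨x, y', h'⟩
    · rfl
    · simp only [Set.mem_setOf_eq, px_some] at hP
      subst hP
      exact absurd ⟨y', h'⟩ h

theorem ev_px_ne (c : K) : ∀ᶠ P : E.Point in cofinite, px P ≠ c := by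
  rw [Filter.eventually_cofinite]
  simpa only [not_not] using finite_px_eq c

theorem ev_ne (Q : E.Point) : ∀ᶠ P : E.Point in cofinite, P ≠ Q := by
  rw [Filter.eventually_cofinite]
  simp

theorem ev_px_notMem {S : Set K} (hS : S.Finite) : ∀ᶠ P : E.Point in cofinite, px P ∉ S := by
  rw [Filter.eventually_cofinite]
  have := hS.biUnion (t := fun c => {P : E.Point | px P = c}) fun c _ => finite_px_eq c
  refine this.subset fun P hP => ?_
  simp only [not_not, Set.mem_setOf_eq] at hP
  exact Set.mem_biUnion hP rfl

theorem ev_py_ne_zero : ∀ᶠ P : E.Point in cofinite, py P ≠ 0 := by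
  have hroots : {c : K | cubF E c = 0}.Finite := by
    have hne : (X ^ 3 + C E.a₄ * X + C E.a₆ : K[X]) ≠ 0 := by
      intro h
      have := congrArg (fun q : K[X] => q.coeff 3) h
      simp [coeff_X, coeff_C] at this
    refine (Polynomial.finite_setOf_isRoot hne).subset fun c hc => ?_
    simpa [IsRoot, cubF] using hc
  filter_upwards [ev_px_notMem (E := E) hroots, ev_ne 0] with P hP hP0 h
  exact hP (show cubF E (px P) = 0 by rw [← py_sq hP0, h]; ring)

section Alg

variable [IsAlgClosed K] [E.IsElliptic]

theorem exists_point (x : K) : ∃ P : E.Point, P ≠ 0 ∧ px P = x := by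
  obtain ⟨y, hy⟩ := IsAlgClosed.exists_pow_nat_eq (cubF E x) (n := 2) (by norm_num)
  exact ⟨Affine.Point.mk (equation_short.mpr hy), Affine.Point.some_ne_zero _, rfl⟩

instance infinite_point : Infinite E.Point :=
  Infinite.of_surjective px fun x => by
    obtain ⟨P, -, hP⟩ := exists_point (E := E) x
    exact ⟨P, hP⟩

/-- A property of `px` holding at cofinitely many points holds for cofinitely many `x`. -/
theorem finite_of_ev {p : K → Prop} (h : ∀ᶠ P : E.Point in cofinite, p (px P)) :
    {x | ¬ p x}.Finite := by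
  refine ((Filter.eventually_cofinite.mp h).image px).subset fun x hx => ?_
  obtain ⟨P, -, hP⟩ := exists_point (E := E) x
  exact ⟨P, by simpa [hP] using hx, hP⟩

/-- `1` and `y` are independent over polynomials in `x` on a cofinite set. -/
theorem poly_eq_zero_of_ev [CharZero K] {g h : K[X]}
    (hev : ∀ᶠ P : E.Point in cofinite, g.eval (px P) + h.eval (px P) * py P = 0) :
    g = 0 ∧ h = 0 := by
  set q : K[X] := X ^ 3 + C E.a₄ * X + C E.a₆ with hq
  have key : g ^ 2 - h ^ 2 * q = 0 := by
    apply Polynomial.eq_zero_of_infinite_isRoot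
    have hev' : ∀ᶠ P : E.Point in cofinite, (g ^ 2 - h ^ 2 * q).IsRoot (px P) := by
      filter_upwards [hev, ev_ne 0] with P hP hP0
      have := py_sq hP0
      simp only [cubF] at this
      simp only [IsRoot, hq, eval_sub, eval_mul, eval_pow, eval_add, eval_C, eval_X]
      linear_combination (g.eval (px P) - h.eval (px P) * py P) * hP + h.eval (px P) ^ 2 * this
    exact ((finite_of_ev hev').infinite_compl).mono fun x hx => by simpa using hx
  have hdq : q.natDegree = 3 := by rw [hq]; compute_degree!
  have h0 : h = 0 := by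
    by_contra hh
    have hg : g ≠ 0 := by
      rintro rfl
      simp [hh, ne_zero_of_natDegree_gt (hdq.symm ▸ (by norm_num : 0 < 3))] at key
    have := congrArg natDegree (sub_eq_zero.mp key)
    rw [natDegree_mul (pow_ne_zero _ hh) (ne_zero_of_natDegree_gt (hdq.symm ▸ (by norm_num : 0 < 3))),
      natDegree_pow, natDegree_pow, hdq] at this
    omega
  subst h0
  simpa using key

end Alg

end FLTA.EllIsogeny.Velu
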