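import Fermat.Agent.EllIsogeny.Velu.Formula

/-!
Vélu's functions satisfy the equation of the quotient curve.
-/

set_option autoImplicit false
set_option linter.unusedSectionVars false
set_option linter.deprecated false

open Polynomial WeierstrassCurve Filter

namespace FLTA.EllIsogeny.Velu

variable {K : Type*} [Field K] [DecidableEq K] {E : Affine K}
variable (N : AddSubgroup E.Point) [Fintype N]

theorem tendsto_translate (Q : E.Point) :
    Tendsto (fun P : E.Point => P + Q) cofinite cofinite :=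
  (add_left_injective Q).tendsto_cofinite

theorem px_notMem_iff {P : E.Point} (hP : P ≠ 0) : px P ∉ poleSet N ↔ P ∉ N := by
  constructor
  · exact fun h hN => h (mem_poleSet N hN hP)
  · rintro hN ⟨T, hT, e⟩
    obtain ⟨h, eP⟩ := exists_eq_some hP
    obtain ⟨h', eT⟩ := exists_eq_some (show (T : E.Point) ≠ 0 from hT)
    rcases (Affine.Point.X_eq_iff (h₁ := h') (h₂ := h)).mp e with e' | e' <;> rw [← eP, ← eT] at e'
    · exact hN (e' ▸ T.2)
    · exact hN (neg_neg P ▸ N.neg_mem (e' ▸ T.2))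

/-- The functions with poles at the inverses of the pole abscissae. -/
def invPoleSet : Set K := (fun x : K => x⁻¹) '' (poleSet N \ {0})

theorem invPoleSet_finite : (invPoleSet N).Finite :=
  ((poleSet_finite N).subset Set.diff_subset).image _

theorem zero_notMem_invPoleSet : (0 : K) ∉ invPoleSet N := by
  rintro ⟨c, ⟨-, hc⟩, h⟩
  exact hc (inv_eq_zero.mp h)

theorem inv_eval_ne_zero {c : K} (hc : c ∈ poleSet N) (k : ℕ) {z : K} (hz : z ∉ invPoleSet N) :
    ((1 - C c * X : K[X]) ^ k).eval z ≠ 0 := by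
  simp only [eval_pow, eval_sub, eval_one, eval_mul, eval_C, eval_X]
  refine pow_ne_zero _ fun h => hz ⟨c, ⟨hc, ?_⟩, ?_⟩
  · rintro (rfl : c = 0)
    simp at h
  · exact inv_eq_of_mul_eq_one_right (sub_eq_zero.mp h).symm

/-- Second order remainder of `∑ v/(1 - c z) + u z/(1 - c z)²`. -/
noncomputable def remS (z : K) : K := ∑ T ∈ nzero N,
  (wv N T * px (T : E.Point) ^ 2 / (1 - px (T : E.Point) * z)
    + wu N T * (2 * px (T : E.Point) - px (T : E.Point) ^ 2 * z) / (1 - px (T : E.Point) * z) ^ 2)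

/-- Second order remainder of `∑ v/(1 - c z)² + 2 u z/(1 - c z)³`. -/
noncomputable def remT (z : K) : K := ∑ T ∈ nzero N,
  (wv N T * (3 * px (T : E.Point) ^ 2 - 2 * px (T : E.Point) ^ 3 * z)
      / (1 - px (T : E.Point) * z) ^ 2
    + 2 * wu N T * (3 * px (T : E.Point) - 3 * px (T : E.Point) ^ 2 * z
      + px (T : E.Point) ^ 3 * z ^ 2) / (1 - px (T : E.Point) * z) ^ 3)

theorem ratOff_remS : RatOff (invPoleSet N) (remS N) := by
  refine RatOff.sum _ fun T hT => ?_
  have hc := mem_poleSet N T.2 ((mem_nzero N).mp hT)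
  refine RatOff.congr
    (((RatOff.const (wv N T * px (T : E.Point) ^ 2)).div_poly
        (fun z hz => inv_eval_ne_zero N hc 1 hz)).add
      (((RatOff.const (wu N T)).mul ((RatOff.const (2 * px (T : E.Point))).sub
        ((RatOff.const (px (T : E.Point) ^ 2)).mul RatOff.id'))).div_poly
        (fun z hz => inv_eval_ne_zero N hc 2 hz))) fun z _ => ?_
  simp

theorem ratOff_remT : RatOff (invPoleSet N) (remT N) := by
  refine RatOff.sum _ fun T hT => ?_
  have hc := mem_poleSet N T.2 ((mem_nzero N).mp hT)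
  refine RatOff.congr
    ((((RatOff.const (wv N T)).mul ((RatOff.const (3 * px (T : E.Point) ^ 2)).sub
        ((RatOff.const (2 * px (T : E.Point) ^ 3)).mul RatOff.id'))).div_poly
        (fun z hz => inv_eval_ne_zero N hc 2 hz)).add
      (((RatOff.const (2 * wu N T)).mul (((RatOff.const (3 * px (T : E.Point))).sub
        ((RatOff.const (3 * px (T : E.Point) ^ 2)).mul RatOff.id')).add
        ((RatOff.const (px (T : E.Point) ^ 3)).mul (RatOff.id'.pow 2)))).div_poly
        (fun z hz => inv_eval_ne_zero N hc 3 hz))) fun z _ => ?_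
  simp

theorem velX_inv {x : K} (hx0 : x ≠ 0) (hx : x ∉ poleSet N) :
    velX N x = x + x⁻¹ * (bigV N + bigW N * x⁻¹ + x⁻¹ ^ 2 * remS N x⁻¹) := by
  simp only [velX, bigV, bigW, remS, Finset.sum_mul, Finset.mul_sum, ← Finset.sum_add_distrib]
  congr 1
  refine Finset.sum_congr rfl fun T hT => ?_
  have hc := mem_poleSet N T.2 ((mem_nzero N).mp hT)
  have hd : x - px (T : E.Point) ≠ 0 := sub_ne_zero.mpr fun h => hx (h ▸ hc)
  generalize px (T : E.Point) = c at hd ⊢
  rw [show 1 - c * x⁻¹ = (x - c) * x⁻¹ by field_simp]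
  field_simp
  ring

theorem velX'_inv {x : K} (hx0 : x ≠ 0) (hx : x ∉ poleSet N) :
    velX' N x = 1 - x⁻¹ ^ 2 * (bigV N + 2 * bigW N * x⁻¹ + x⁻¹ ^ 2 * remT N x⁻¹) := by
  simp only [velX', bigV, bigW, remT, Finset.sum_mul, Finset.mul_sum, ← Finset.sum_add_distrib]
  congr 1
  refine Finset.sum_congr rfl fun T hT => ?_
  have hc := mem_poleSet N T.2 ((mem_nzero N).mp hT)
  have hd : x - px (T : E.Point) ≠ 0 := sub_ne_zero.mpr fun h => hx (h ▸ hc)
  generalize px (T : E.Point) = c at hd ⊢
  rw [show 1 - c * x⁻¹ = (x - c) * x⁻¹ by field_simp]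
  field_simp
  ring

variable [E.IsShortNF] [CharZero K] [IsAlgClosed K] [E.IsElliptic]

/-- If the equation defect has the expansion `x⁻¹ Q(x⁻¹)` and is translation invariant it is `0`. -/
theorem eq_zero_of_invariant {R : E.Point → K} {R₀ Q : K → K} (hR₀ : RatOff (poleSet N) R₀)
    (hQ : RatOff (invPoleSet N) Q)
    (hinv : ∀ P : E.Point, ∀ T ∈ N, R (P + T) = R P)
    (hR : ∀ P : E.Point, P ≠ 0 → px P ∉ poleSet N → R P = R₀ (px P))
    (hexp : ∀ x : K, x ≠ 0 → x ∉ poleSet N → R₀ x = x⁻¹ * Q x⁻¹)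
    (hy : ∀ T ∈ N, T ≠ 0 → py T ≠ 0) {x : K} (hx : x ∉ poleSet N) : R₀ x = 0 := by
  obtain ⟨n, m, hcop, hm, hn⟩ := hR₀.exists_coprime (poleSet_finite N)
  -- `m` has no roots
  have hroot : ∀ r, m.eval r ≠ 0 := by
    intro r hr
    obtain ⟨T, hT0, rfl⟩ : r ∈ poleSet N := by
      by_contra h; exact hm r h hr
    change (T : E.Point) ≠ 0 at hT0
    set t : E.Point := (T : E.Point) with ht
    have hd : Val t (fun P => px P - px t) 0 := by
      simpa using (Val.px' hT0).sub (Val.const (px t) hT0)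
    have hU : Val t (fun P => (py P + py t) ^ 2 - (px P + px t) * (px P - px t) ^ 2)
        ((py t + py t) ^ 2) := by
      simpa using ((((Val.py' hT0).add (Val.const (py t) hT0)).pow 2).sub
        (((Val.px' hT0).add (Val.const (px t) hT0)).mul (hd.pow 2)))
    have hU0 : (py t + py t) ^ 2 ≠ 0 := by
      refine pow_ne_zero _ ?_
      rw [← two_mul]
      exact mul_ne_zero two_ne_zero (hy t T.2 hT0)
    have hz : Val t (fun P => (px (P + -t))⁻¹) 0 := by
      have := (hd.pow 2).div hU hU0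
      rw [zero_pow two_ne_zero, zero_div] at this
      refine this.congr ?_
      filter_upwards [ev_px_ne (px t), ev_ne 0] with P hne hP
      obtain ⟨-, e, -⟩ := add_coords hP (neg_ne_zero.mpr hT0) (by simpa using hne)
      have hd' : px P - px t ≠ 0 := sub_ne_zero.mpr hne
      rw [e]
      simp only [px_neg, py_neg]
      rw [inv_eq_one_div]
      field_simp
      ring
    have hrhs := ((Val.px' hT0).poly m).mul (hz.mul (hz.ratOff
      (invPoleSet_finite N) hQ (zero_notMem_invPoleSet N)))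
    have hlhs := ((Val.px' hT0).poly n).congr (v := fun P => m.eval (px P) *
        ((px (P + -t))⁻¹ * Q (px (P + -t))⁻¹)) (by
      filter_upwards [ev_ne 0, ev_px_notMem (poleSet_finite N), (tendsto_translate (-t)).eventually
        (((ev_ne 0).and (ev_px_notMem (poleSet_finite N))).and
          ((ev_px_ne 0).and (ev_px_notMem ((invPoleSet_finite N).image (fun z : K => z⁻¹)))))]
        with P hP hPS ⟨⟨hQ0, hQS⟩, hQx, hQi⟩
      rw [← hexp _ hQx hQS,
        ← hR _ hQ0 hQS, hinv P _ (N.neg_mem T.2), hR P hP hPS, mul_comm, hn _ hPS])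
    have hn0 := hlhs.unique hrhs
    simp only [zero_mul, mul_zero] at hn0
    obtain ⟨a, b, hab⟩ := hcop
    have := congrArg (fun q : K[X] => q.eval (px t)) hab
    have hr' : m.eval (px t) = 0 := hr
    simp [hn0, hr'] at this
  obtain ⟨c, rfl⟩ : ∃ c, m = C c := by
    rcases eq_or_ne m.degree 0 with h | h
    · exact ⟨_, eq_C_of_degree_eq_zero h⟩
    · obtain ⟨r, hr⟩ := IsAlgClosed.exists_root m h
      exact absurd hr (hroot r)
  have hc : c ≠ 0 := by simpa using hroot 0
  have hn0 : n = 0 := by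
    by_contra hn0
    have hfin : ((poleSet N ∪ {0} ∪ (fun z : K => z⁻¹) '' invPoleSet N)).Finite :=
      ((poleSet_finite N).union (Set.finite_singleton 0)).union ((invPoleSet_finite N).image _)
    have h := RatOff.eq_of_finite (S := invPoleSet N)
      (F := fun z => n.reverse.eval z) (G := fun z => c * (z ^ (n.natDegree + 1) * Q z))
      ⟨n.reverse, 1, by simp, by simp⟩
      ((RatOff.const c).mul ((RatOff.id'.pow (n.natDegree + 1)).mul hQ))
      (invPoleSet_finite N)
      ((hfin.image (fun z : K => z⁻¹)).union (Set.finite_singleton 0))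
      (fun z hz => by
        simp only [Set.mem_union, Set.mem_singleton_iff, not_or] at hz
        obtain ⟨hz1, hz0⟩ := hz
        have hxS : z⁻¹ ∉ poleSet N := fun h => hz1 ⟨_, Or.inl (Or.inl h), inv_inv z⟩
        have e := hn z⁻¹ hxS
        rw [hexp _ (inv_ne_zero hz0) hxS, inv_inv, eval_C] at e
        letI : Invertible (z⁻¹) := invertibleOfNonzero (inv_ne_zero hz0)
        have e2 := eval₂_reverse_mul_pow (RingHom.id K) (z⁻¹) n
        rw [invOf_eq_inv, inv_inv, eval₂_id, eval₂_id] at e2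
        rw [← e, inv_pow] at e2
        field_simp at e2 ⊢
        linear_combination e2)
      (x := 0) (zero_notMem_invPoleSet N)
    simp [← coeff_zero_eq_eval_zero, coeff_zero_reverse, hn0] at h
  have := hn x hx
  rw [hn0, eval_zero, eval_C, mul_eq_zero] at this
  exact this.resolve_right hc

variable {E' : Affine K}

/-- The Vélu functions satisfy the equation of the quotient curve. -/
theorem velu_equation (hE' : IsVeluCurve N E') (hy : ∀ T ∈ N, T ≠ 0 → py T ≠ 0) {P : E.Point}
    (hP : P ∉ N) : veY N P ^ 2 = cubF E' (veX N P) := by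
  have hP0 : P ≠ 0 := fun h => hP (h ▸ N.zero_mem)
  have hPS : px P ∉ poleSet N := (px_notMem_iff N hP0).mpr hP
  let R : E.Point → K := fun P => veY N P ^ 2 - cubF E' (veX N P)
  let R₀ : K → K := fun x => cubF E x * velX' N x ^ 2 - cubF E' (velX N x)
  let Q : K → K := fun z =>
    -2 * remT N z - 3 * remS N z + (bigV N + 2 * bigW N * z + z ^ 2 * remT N z) ^ 2
      - 2 * E.a₄ * (bigV N + 2 * bigW N * z + z ^ 2 * remT N z)
      - 3 * (bigV N + bigW N * z + z ^ 2 * remS N z) ^ 2
      - E'.a₄ * (bigV N + bigW N * z + z ^ 2 * remS N z)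
      - 2 * E.a₆ * (bigV N + 2 * bigW N * z + z ^ 2 * remT N z) * z
      + z ^ 2 * (E.a₄ * (bigV N + 2 * bigW N * z + z ^ 2 * remT N z) ^ 2
          - (bigV N + bigW N * z + z ^ 2 * remS N z) ^ 3)
      + z ^ 3 * E.a₆ * (bigV N + 2 * bigW N * z + z ^ 2 * remT N z) ^ 2
  have hR₀ : RatOff (poleSet N) R₀ :=
    ((((RatOff.id'.pow 3).add ((RatOff.const E.a₄).mul RatOff.id')).add
      (RatOff.const E.a₆)).mul ((ratOff_velX' N).pow 2)).sub
      ((((ratOff_velX N).pow 3).add ((RatOff.const E'.a₄).mul (ratOff_velX N))).add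
        (RatOff.const E'.a₆))
  have hS : RatOff (invPoleSet N) (fun z => bigV N + bigW N * z + z ^ 2 * remS N z) :=
    ((RatOff.const _).add ((RatOff.const _).mul RatOff.id')).add
      ((RatOff.id'.pow 2).mul (ratOff_remS N))
  have hT : RatOff (invPoleSet N) (fun z => bigV N + 2 * bigW N * z + z ^ 2 * remT N z) :=
    ((RatOff.const _).add ((RatOff.const _).mul RatOff.id')).add
      ((RatOff.id'.pow 2).mul (ratOff_remT N))
  have hQ : RatOff (invPoleSet N) Q :=
    (((((((((RatOff.const (-2)).mul (ratOff_remT N)).sub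
      ((RatOff.const 3).mul (ratOff_remS N))).add (hT.pow 2)).sub
      ((RatOff.const (2 * E.a₄)).mul hT)).sub ((RatOff.const 3).mul (hS.pow 2))).sub
      ((RatOff.const E'.a₄).mul hS)).sub (((RatOff.const (2 * E.a₆)).mul hT).mul RatOff.id')).add
      ((RatOff.id'.pow 2).mul (((RatOff.const E.a₄).mul (hT.pow 2)).sub (hS.pow 3)))).add
      (((RatOff.id'.pow 3).mul (RatOff.const E.a₆)).mul (hT.pow 2))
  have hR : ∀ P : E.Point, P ≠ 0 → px P ∉ poleSet N → R P = R₀ (px P) := by
    intro P h0 hS'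
    simp only [R, R₀]
    rw [veX_eq N h0 hS', veY_eq N h0 hS', mul_pow, py_sq h0]
  have key := eq_zero_of_invariant N (R := R) hR₀ hQ
    (fun P T hT => by simp only [R, veX_add_mem N P hT, veY_add_mem N P hT]) hR
    (fun x hx0 hx => by
      simp only [R₀, Q, cubF, velX_inv N hx0 hx, velX'_inv N hx0 hx, hE'.coeff₄, hE'.coeff₆]
      field_simp
      ring)
    hy hPS
  rw [← hR P hP0 hPS] at key
  exact sub_eq_zero.mp key

end FLTA.EllIsogeny.Velu
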