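import Fermat.Agent.EllIsogeny.Velu.HasD
import Mathlib.Algebra.Polynomial.Reverse
import Mathlib.Algebra.BigOperators.Field

/-!
Vélu's functions and the identity expressing that they land on the quotient curve.
-/

set_option autoImplicit false
set_option linter.unusedSectionVars false
set_option linter.deprecated false

open Polynomial WeierstrassCurve Filter

namespace FLTA.EllIsogeny.Velu

variable {K : Type*} [Field K] [DecidableEq K] {E : Affine K}
variable (N : AddSubgroup E.Point) [Fintype N]

/-- The non-zero elements of `N`. -/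
noncomputable def nzero : Finset N := by classical exact Finset.univ.erase 0

theorem mem_nzero {T : N} : T ∈ nzero N ↔ (T : E.Point) ≠ 0 := by
  classical simp [nzero]

/-- `X(P) = ∑ (x(P + T) - x(T))`. -/
def veX (P : E.Point) : K := ∑ T : N, (px (P + (T : E.Point)) - px (T : E.Point))

/-- `Y(P) = ∑ y(P + T)`. -/
def veY (P : E.Point) : K := ∑ T : N, py (P + (T : E.Point))

/-- The abscissae of the non-zero points of `N`. -/
def poleSet : Set K := (fun T : N => px (T : E.Point)) '' {T | (T : E.Point) ≠ 0}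

theorem poleSet_finite : (poleSet N).Finite := (Set.toFinite _).image _

theorem mem_poleSet {T : E.Point} (hT : T ∈ N) (h0 : T ≠ 0) : px T ∈ poleSet N :=
  ⟨⟨T, hT⟩, h0, rfl⟩

theorem veX_add_mem (P : E.Point) {T₀ : E.Point} (h : T₀ ∈ N) : veX N (P + T₀) = veX N P := by
  simp only [veX, Finset.sum_sub_distrib]
  congr 1
  exact Fintype.sum_equiv (Equiv.addLeft (⟨T₀, h⟩ : N)) _ _ fun T => by simp [add_assoc]

theorem veY_add_mem (P : E.Point) {T₀ : E.Point} (h : T₀ ∈ N) : veY N (P + T₀) = veY N P := by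
  simp only [veY]
  exact Fintype.sum_equiv (Equiv.addLeft (⟨T₀, h⟩ : N)) _ _ fun T => by simp [add_assoc]

/-- `v_T = f'(x_T)`. -/
def wv (T : N) : K := dcubF E (px (T : E.Point))

/-- `u_T = 2 y_T²`. -/
def wu (T : N) : K := 2 * py (T : E.Point) ^ 2

/-- `X` as a rational function of `x`. -/
noncomputable def velX (x : K) : K := x + ∑ T ∈ nzero N,
  (wv N T / (x - px (T : E.Point)) + wu N T / (x - px (T : E.Point)) ^ 2)

/-- `dX / dx`. -/
noncomputable def velX' (x : K) : K := 1 - ∑ T ∈ nzero N,
  (wv N T / (x - px (T : E.Point)) ^ 2 + 2 * wu N T / (x - px (T : E.Point)) ^ 3)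

theorem ratOff_velX : RatOff (poleSet N) (velX N) := by
  refine RatOff.id'.add (RatOff.sum _ fun T hT => ?_)
  have hc : px (T : E.Point) ∈ poleSet N := mem_poleSet N T.2 ((mem_nzero N).mp hT)
  exact (((RatOff.const (wv N T)).div_linear_pow hc 1).congr fun x _ => by rw [pow_one]).add
    ((RatOff.const (wu N T)).div_linear_pow hc 2)

theorem ratOff_velX' : RatOff (poleSet N) (velX' N) := by
  refine (RatOff.const 1).sub (RatOff.sum _ fun T hT => ?_)
  have hc : px (T : E.Point) ∈ poleSet N := mem_poleSet N T.2 ((mem_nzero N).mp hT)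
  exact ((RatOff.const (wv N T)).div_linear_pow hc 2).add
    ((RatOff.const (2 * wu N T)).div_linear_pow hc 3)

/-- Vélu's `V`. -/
noncomputable def bigV : K := ∑ T ∈ nzero N, wv N T

/-- Vélu's `W`. -/
noncomputable def bigW : K := ∑ T ∈ nzero N, (wu N T + px (T : E.Point) * wv N T)

/-- `E'` has the coefficients of the quotient of `E` by `N`. -/
structure IsVeluCurve (E' : Affine K) : Prop where
  short : E'.IsShortNF
  coeff₄ : E'.a₄ = E.a₄ - 5 * bigV N
  coeff₆ : E'.a₆ = E.a₆ - 7 * bigW N

variable [E.IsShortNF]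

theorem veX_neg (P : E.Point) : veX N (-P) = veX N P := by
  simp only [veX]
  exact Fintype.sum_equiv (Equiv.neg N) _ _ fun T => by
    simp only [Equiv.neg_apply, NegMemClass.coe_neg, px_neg]
    rw [← px_neg (-P + (T : E.Point)), neg_add, neg_neg]

theorem veY_neg (P : E.Point) : veY N (-P) = -veY N P := by
  simp only [veY, ← Finset.sum_neg_distrib]
  exact Fintype.sum_equiv (Equiv.neg N) _ _ fun T => by
    simp only [Equiv.neg_apply, NegMemClass.coe_neg]
    rw [← py_neg, neg_add, neg_neg]

variable [CharZero K]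

theorem veX_eq {P : E.Point} (hP : P ≠ 0) (hx : px P ∉ poleSet N) :
    veX N P = velX N (px P) := by
  classical
  have h0 : (0 : N) ∈ (Finset.univ : Finset N) := Finset.mem_univ _
  rw [veX, ← Finset.add_sum_erase _ _ h0, velX]
  simp only [AddSubgroup.coe_zero, add_zero, px_zero, sub_zero]
  congr 1
  change ∑ T ∈ nzero N, _ = _
  have hneg : ∑ T ∈ nzero N, (px (P + (T : E.Point)) - px (T : E.Point))
      = ∑ T ∈ nzero N, (px (P + -(T : E.Point)) - px (T : E.Point)) := by
    refine Finset.sum_equiv (Equiv.neg N) (fun T => by simp [mem_nzero]) fun T _ => by simp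
  have key : 2 * ∑ T ∈ nzero N, (px (P + (T : E.Point)) - px (T : E.Point)) = 2 * ∑ T ∈ nzero N,
      (wv N T / (px P - px (T : E.Point)) + wu N T / (px P - px (T : E.Point)) ^ 2) := by
    rw [two_mul]
    conv_lhs => arg 2; rw [hneg]
    rw [← Finset.sum_add_distrib, Finset.mul_sum]
    refine Finset.sum_congr rfl fun T hT => ?_
    have hT0 := (mem_nzero N).mp hT
    have hne : px P ≠ px (T : E.Point) := fun e => hx (e ▸ mem_poleSet N T.2 hT0)
    obtain ⟨-, e1, -⟩ := add_coords hP hT0 hne
    obtain ⟨-, e2, -⟩ := add_coords hP (neg_ne_zero.mpr hT0) (by simpa using hne)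
    rw [e1, e2]
    have s1 := py_sq hP
    have s2 := py_sq hT0
    have hd : px P - px (T : E.Point) ≠ 0 := sub_ne_zero.mpr hne
    simp only [px_neg, py_neg, wv, wu, dcubF, cubF] at s1 s2 ⊢
    field_simp
    linear_combination 2 * s1 - 2 * s2
  exact mul_left_cancel₀ two_ne_zero key

theorem veY_eq {P : E.Point} (hP : P ≠ 0) (hx : px P ∉ poleSet N) :
    veY N P = py P * velX' N (px P) := by
  classical
  have h0 : (0 : N) ∈ (Finset.univ : Finset N) := Finset.mem_univ _
  rw [veY, ← Finset.add_sum_erase _ _ h0, velX', mul_sub, mul_one, sub_eq_add_neg]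
  simp only [AddSubgroup.coe_zero, add_zero]
  congr 1
  change ∑ T ∈ nzero N, _ = _
  have hneg : ∑ T ∈ nzero N, py (P + (T : E.Point))
      = ∑ T ∈ nzero N, py (P + -(T : E.Point)) := by
    refine Finset.sum_equiv (Equiv.neg N) (fun T => by simp [mem_nzero]) fun T _ => by simp
  have key : 2 * ∑ T ∈ nzero N, py (P + (T : E.Point)) = 2 * -(py P * ∑ T ∈ nzero N,
      (wv N T / (px P - px (T : E.Point)) ^ 2
        + 2 * wu N T / (px P - px (T : E.Point)) ^ 3)) := by
    rw [two_mul]
    conv_lhs => arg 2; rw [hneg]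
    rw [← Finset.sum_add_distrib, Finset.mul_sum, ← Finset.sum_neg_distrib, Finset.mul_sum]
    refine Finset.sum_congr rfl fun T hT => ?_
    have hT0 := (mem_nzero N).mp hT
    have hne : px P ≠ px (T : E.Point) := fun e => hx (e ▸ mem_poleSet N T.2 hT0)
    obtain ⟨-, e1, f1⟩ := add_coords hP hT0 hne
    obtain ⟨-, e2, f2⟩ := add_coords hP (neg_ne_zero.mpr hT0) (by simpa using hne)
    rw [f1, f2, e1, e2]
    have s1 := py_sq hP
    have s2 := py_sq hT0
    have hd : px P - px (T : E.Point) ≠ 0 := sub_ne_zero.mpr hne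
    simp only [px_neg, py_neg, wv, wu, dcubF, cubF] at s1 s2 ⊢
    field_simp
    linear_combination (-2 * py P) * (s1 - s2)
  exact mul_left_cancel₀ two_ne_zero key

end FLTA.EllIsogeny.Velu
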