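import Fermat.Agent.EllIsogeny.Velu.Val
import Mathlib.RingTheory.Polynomial.Wronskian

/-!
The derivation dual to the invariant differential `dx / 2y` on cofinitely defined functions.
-/

set_option autoImplicit false
set_option linter.unusedSectionVars false
set_option linter.deprecated false

open Polynomial WeierstrassCurve Filter

namespace FLTA.EllIsogeny.Velu

variable {K : Type*} [Field K] {E : Affine K}

/-- `D(g(x) + h(x) y)` for `D x = 2 y`, `D y = f'(x)`. -/
noncomputable def pairD (g h : K[X]) (P : E.Point) : K :=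
  2 * py P * (derivative g).eval (px P) + 2 * cubF E (px P) * (derivative h).eval (px P)
    + h.eval (px P) * dcubF E (px P)

/-- `v = D u` on cofinitely many points. -/
def HasD (u v : E.Point → K) : Prop :=
  ∃ g h m : K[X], m ≠ 0 ∧ ∀ᶠ P in cofinite,
    u P * m.eval (px P) = pairEval g h P ∧
    v P * m.eval (px P) ^ 2 = pairD g h P * m.eval (px P)
      - pairEval g h P * (2 * py P * (derivative m).eval (px P))

variable [E.IsShortNF]

theorem pairD_mul {g h g' h' : K[X]} {P : E.Point} (hP : P ≠ 0) :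
    pairD (g * g' + h * h' * (X ^ 3 + C E.a₄ * X + C E.a₆)) (g * h' + h * g') P
      = pairD g h P * pairEval g' h' P + pairEval g h P * pairD g' h' P := by
  have := py_sq hP
  simp only [cubF] at this
  simp only [pairD, pairEval, cubF, dcubF, map_add, derivative_mul, derivative_C,
    derivative_X, derivative_X_pow, eval_mul, eval_pow, eval_add, eval_C, eval_X, eval_zero,
    eval_one]
  push_cast
  linear_combination -2 * ((derivative g).eval (px P) * h'.eval (px P)
    + (derivative g').eval (px P) * h.eval (px P)) * this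

variable [DecidableEq K] [IsAlgClosed K] [CharZero K] [E.IsElliptic]

namespace HasD

variable {u v u' v' : E.Point → K}

theorem congr (H : HasD u v) (e : ∀ᶠ P in cofinite, u' P = u P)
    (e' : ∀ᶠ P in cofinite, v' P = v P) : HasD u' v' := by
  obtain ⟨g, h, m, hm, hev⟩ := H
  refine ⟨g, h, m, hm, ?_⟩
  filter_upwards [hev, e, e'] with P hP h1 h2
  rw [h1, h2]; exact hP

theorem ev_eval_ne_zero {m : K[X]} (hm : m ≠ 0) :
    ∀ᶠ P : E.Point in cofinite, m.eval (px P) ≠ 0 :=
  ev_px_notMem (Polynomial.finite_setOf_isRoot hm)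

theorem const (c : K) : HasD (fun _ : E.Point => c) (fun _ => 0) :=
  ⟨C c, 0, 1, one_ne_zero, Eventually.of_forall fun P => by simp [pairEval, pairD]⟩

theorem px' : HasD (fun P : E.Point => px P) (fun P => 2 * py P) :=
  ⟨X, 0, 1, one_ne_zero, Eventually.of_forall fun P => by simp [pairEval, pairD]⟩

theorem py' : HasD (fun P : E.Point => py P) (fun P => dcubF E (px P)) :=
  ⟨0, 1, 1, one_ne_zero, Eventually.of_forall fun P => by simp [pairEval, pairD]⟩

theorem add (H : HasD u v) (H' : HasD u' v') :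
    HasD (fun P => u P + u' P) (fun P => v P + v' P) := by
  obtain ⟨g, h, m, hm, hev⟩ := H
  obtain ⟨g', h', m', hm', hev'⟩ := H'
  refine ⟨g * m' + g' * m, h * m' + h' * m, m * m', mul_ne_zero hm hm', ?_⟩
  filter_upwards [hev, hev', ev_ne 0] with P ⟨a, b⟩ ⟨a', b'⟩ hP
  have hsq := py_sq hP
  simp only [pairD, pairEval, derivative_mul, map_add, eval_add, eval_mul] at a b a' b' ⊢
  refine ⟨?_, ?_⟩
  · linear_combination m'.eval (px P) * a + m.eval (px P) * a'
  · linear_combination m'.eval (px P) ^ 2 * b + m.eval (px P) ^ 2 * b'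
      + 2 * (h.eval (px P) * (derivative m').eval (px P) + h'.eval (px P) * (derivative m).eval (px P))
        * (m.eval (px P) * m'.eval (px P)) * hsq

theorem mul (H : HasD u v) (H' : HasD u' v') :
    HasD (fun P => u P * u' P) (fun P => v P * u' P + u P * v' P) := by
  obtain ⟨g, h, m, hm, hev⟩ := H
  obtain ⟨g', h', m', hm', hev'⟩ := H'
  refine ⟨g * g' + h * h' * (X ^ 3 + C E.a₄ * X + C E.a₆), g * h' + h * g', m * m',
    mul_ne_zero hm hm', ?_⟩
  filter_upwards [hev, hev', ev_ne 0] with P ⟨a, b⟩ ⟨a', b'⟩ hP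
  rw [pairEval_mul hP, pairD_mul hP, derivative_mul, eval_mul, eval_add, eval_mul, eval_mul,
    ← a, ← a']
  rw [← a] at b
  rw [← a'] at b'
  refine ⟨by ring, ?_⟩
  linear_combination (u' P) * m'.eval (px P) ^ 2 * b + (u P) * m.eval (px P) ^ 2 * b'

theorem neg (H : HasD u v) : HasD (fun P => -u P) (fun P => -v P) :=
  ((HasD.const (-1)).mul H).congr (Eventually.of_forall fun P => by simp)
    (Eventually.of_forall fun P => by simp)

theorem sub (H : HasD u v) (H' : HasD u' v') :
    HasD (fun P => u P - u' P) (fun P => v P - v' P) :=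
  (H.add H'.neg).congr (Eventually.of_forall fun P => by ring)
    (Eventually.of_forall fun P => by ring)

theorem sq (H : HasD u v) : HasD (fun P => u P ^ 2) (fun P => 2 * u P * v P) :=
  (H.mul H).congr (Eventually.of_forall fun P => by ring) (Eventually.of_forall fun P => by ring)

theorem sum {ι : Type*} (s : Finset ι) {U V : ι → E.Point → K}
    (H : ∀ i ∈ s, HasD (U i) (V i)) :
    HasD (fun P => ∑ i ∈ s, U i P) (fun P => ∑ i ∈ s, V i P) := by
  classical
  induction s using Finset.induction with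
  | empty => simpa using HasD.const (E := E) 0
  | insert i s hi ih =>
    simpa [Finset.sum_insert hi] using
      (H i (Finset.mem_insert_self _ _)).add (ih fun j hj => H j (Finset.mem_insert_of_mem hj))

/-- `D u` is determined by `u`. -/
theorem unique (H : HasD u v) (H' : HasD u v') : ∀ᶠ P in cofinite, v P = v' P := by
  obtain ⟨g, h, m, hm, hev⟩ := H.sub H'
  have hg := poly_eq_zero_of_ev (E := E) (g := g) (h := h) (by
    filter_upwards [hev] with P ⟨a, _⟩
    simpa [pairEval] using a.symm)
  obtain ⟨rfl, rfl⟩ := hg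
  filter_upwards [hev, ev_eval_ne_zero hm] with P ⟨_, b⟩ hP
  simpa [pairEval, pairD, hP, sub_eq_zero] using b

/-- A function in the class is cofinitely zero or cofinitely non-zero. -/
theorem ev_zero_or_ne_zero (H : HasD u v) :
    (∀ᶠ P in cofinite, u P = 0) ∨ ∀ᶠ P in cofinite, u P ≠ 0 := by
  obtain ⟨g, h, m, hm, hev⟩ := H
  by_cases hgh : g = 0 ∧ h = 0
  · left
    obtain ⟨rfl, rfl⟩ := hgh
    filter_upwards [hev, ev_eval_ne_zero hm] with P ⟨a, _⟩ hP
    simpa [pairEval, hP] using a
  · right
    filter_upwards [hev, pairEval_ev_ne_zero (E := E) hgh] with P ⟨a, _⟩ hP h0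
    exact hP (by rw [← a, h0, zero_mul])

theorem inv (H : HasD u v) (hne : ∀ᶠ P in cofinite, u P ≠ 0) :
    HasD (fun P => (u P)⁻¹) (fun P => -v P / u P ^ 2) := by
  have ⟨g, h, m, hm, hev⟩ := H
  have hgh : ¬(g = 0 ∧ h = 0) := by
    rintro ⟨rfl, rfl⟩
    obtain ⟨P, ⟨⟨a, -⟩, hP⟩, hu⟩ := ((hev.and (ev_eval_ne_zero hm)).and hne).exists
    simp [pairEval, hP, hu] at a
  have hN : pairNorm E g h ≠ 0 := by
    intro h0
    have hgh' : ¬(g = 0 ∧ -h = 0) := by simpa using hgh
    obtain ⟨P, ⟨hP, hP'⟩, hP0⟩ := (((pairEval_ev_ne_zero (E := E) hgh).and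
      (pairEval_ev_ne_zero (E := E) hgh')).and (ev_ne 0)).exists
    have := pairNorm_eval (g := g) (h := h) hP0
    rw [h0, eval_zero] at this
    exact mul_ne_zero hP hP' this.symm
  let w : E.Point → K := fun P =>
    (pairD (m * g) (-(m * h)) P * (pairNorm E g h).eval (px P)
      - pairEval (m * g) (-(m * h)) P * (2 * py P * (derivative (pairNorm E g h)).eval (px P)))
      / (pairNorm E g h).eval (px P) ^ 2
  have hw : HasD (fun P => (u P)⁻¹) w := by
    refine ⟨m * g, -(m * h), pairNorm E g h, hN, ?_⟩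
    filter_upwards [hev, hne, ev_eval_ne_zero hN, ev_ne 0] with P ⟨a, _⟩ hu hN' hP0
    refine ⟨?_, by simp only [w]; field_simp⟩
    rw [pairNorm_eval hP0, ← a]
    simp only [pairEval, eval_mul, eval_neg]
    field_simp
  have key : ∀ᶠ P in cofinite, v P * (u P)⁻¹ + u P * w P = 0 := by
    refine (H.mul hw).unique ((HasD.const (1 : K)).congr ?_ (Eventually.of_forall fun P => rfl))
    filter_upwards [hne] with P hu
    exact mul_inv_cancel₀ hu
  refine hw.congr (Eventually.of_forall fun P => rfl) ?_
  filter_upwards [key, hne] with P e hu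
  field_simp at e ⊢
  linear_combination -e

theorem div (H : HasD u v) (H' : HasD u' v') (hne : ∀ᶠ P in cofinite, u' P ≠ 0) :
    HasD (fun P => u P / u' P) (fun P => (v P * u' P - u P * v' P) / u' P ^ 2) := by
  refine (H.mul (H'.inv hne)).congr (Eventually.of_forall fun P => div_eq_mul_inv _ _) ?_
  filter_upwards [hne] with P hP
  field_simp
  ring

/-- Functions with zero derivative are constant. -/
theorem const_of_zero (H : HasD u v) (hv : ∀ᶠ P in cofinite, v P = 0) :
    ∃ c, ∀ᶠ P in cofinite, u P = c := by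
  obtain ⟨g, h, m, hm, hev⟩ := H
  obtain ⟨q, hq⟩ : ∃ q : K[X], q = X ^ 3 + C E.a₄ * X + C E.a₆ := ⟨_, rfl⟩
  have hdq : q.natDegree = 3 := by rw [hq]; compute_degree!
  have hz := poly_eq_zero_of_ev (E := E)
    (g := (2 * derivative h * q + h * derivative q) * m - 2 * q * h * derivative m)
    (h := 2 * (derivative g * m - g * derivative m)) (by
      filter_upwards [hev, hv, ev_ne 0] with P ⟨_, b⟩ hP hP0
      have hsq := py_sq hP0
      rw [hP, zero_mul] at b
      simp only [pairD, pairEval, cubF, dcubF] at b hsq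
      simp only [hq, map_add, derivative_mul, derivative_C, derivative_X, derivative_X_pow,
        eval_sub, eval_mul, eval_pow, eval_add, eval_C, eval_X, eval_zero, eval_one, eval_ofNat]
      push_cast
      linear_combination -b + 2 * h.eval (px P) * (derivative m).eval (px P) * hsq)
  obtain ⟨h1, h2⟩ := hz
  have hw : derivative g * m - g * derivative m = 0 := by simpa using h2
  have hprop : ∀ a b : K[X], b ≠ 0 → derivative a * b - a * derivative b = 0 →
      ∃ c : K, a = C c * b := by
    classical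
    intro a b hb hab
    have hd : gcd a b ≠ 0 := fun h => hb ((gcd_eq_zero_iff _ _).mp h).2
    obtain ⟨a', ha'⟩ := gcd_dvd_left a b
    obtain ⟨b', hb'⟩ := gcd_dvd_right a b
    obtain ⟨d, hd'⟩ : ∃ d, d = gcd a b := ⟨_, rfl⟩
    obtain ⟨r, s, hrs⟩ := exists_gcd_eq_mul_add_mul a b
    rw [← hd'] at ha' hb' hd hrs
    have hcop : IsCoprime a' b' := by
      refine ⟨r, s, mul_left_cancel₀ hd ?_⟩
      rw [mul_one]; conv_rhs => rw [hrs, ha', hb']
      ring
    have hw' : wronskian a' b' = 0 := by
      have : d ^ 2 * wronskian a' b' = 0 := by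
        rw [ha', hb', derivative_mul, derivative_mul] at hab
        simp only [wronskian]
        linear_combination -hab
      simpa [hd] using this
    obtain ⟨e1, e2⟩ := hcop.wronskian_eq_zero_iff.mp hw'
    obtain ⟨ca, rfl⟩ : ∃ ca, a' = C ca := ⟨_, eq_C_of_derivative_eq_zero e1⟩
    obtain ⟨cb, rfl⟩ : ∃ cb, b' = C cb := ⟨_, eq_C_of_derivative_eq_zero e2⟩
    have hcb : cb ≠ 0 := by rintro rfl; exact hb (by simp [hb'])
    exact ⟨ca / cb, by rw [ha', hb', ← mul_assoc, mul_comm (C (ca / cb)) d, mul_assoc, ← C_mul,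
      div_mul_cancel₀ _ hcb]⟩
  obtain ⟨c, hc⟩ := hprop g m hm hw
  have hh : h = 0 := by
    by_contra hh
    have hw2 : derivative (h ^ 2 * q) * m ^ 2 - h ^ 2 * q * derivative (m ^ 2) = 0 := by
      rw [derivative_mul, derivative_pow, derivative_pow]
      simp only [Nat.cast_ofNat, Nat.reduceSub, pow_one, map_ofNat]
      linear_combination h * m * h1
    obtain ⟨e, he⟩ := hprop _ _ (pow_ne_zero 2 hm) hw2
    have hq0 : q ≠ 0 := ne_zero_of_natDegree_gt (hdq.symm ▸ (by norm_num : 0 < 3))
    have := congrArg natDegree he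
    have he0 : e ≠ 0 := by
      rintro rfl
      simp [hh, hq0] at he
    rw [natDegree_mul (pow_ne_zero _ hh) hq0, natDegree_pow, hdq, natDegree_C_mul he0,
      natDegree_pow] at this
    omega
  refine ⟨c, ?_⟩
  filter_upwards [hev, ev_eval_ne_zero hm] with P ⟨a, _⟩ hP
  rw [hh, hc] at a
  simp only [pairEval, eval_mul, eval_C, eval_zero, zero_mul, add_zero] at a
  exact mul_right_cancel₀ hP a

end HasD

end FLTA.EllIsogeny.Velu
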