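import Fermat.Agent.EllIsogeny.Velu.Equation

/-!
The quotient homomorphism attached to Vélu's functions.
-/

set_option autoImplicit false
set_option linter.unusedSectionVars false
set_option linter.deprecated false

open Polynomial WeierstrassCurve Filter

namespace FLTA.EllIsogeny.Velu

variable {K : Type*} [Field K] [DecidableEq K] {E E' : Affine K}
variable [E.IsShortNF] [CharZero K] [IsAlgClosed K] [E.IsElliptic]

/-- Functions admitting a derivative. -/
def Diff (u : E.Point → K) : Prop := ∃ v, HasD u v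

namespace Diff

theorem poly {u : E.Point → K} (hu : Diff u) (p : K[X]) : Diff (fun P => p.eval (u P)) := by
  obtain ⟨v, hv⟩ := hu
  induction p using Polynomial.induction_on' with
  | add p q hp hq =>
    obtain ⟨a, ha⟩ := hp
    obtain ⟨b, hb⟩ := hq
    simp only [eval_add]
    exact ⟨_, ha.add hb⟩
  | monomial k a =>
    suffices Diff (fun P => u P ^ k) by
      obtain ⟨w, hw⟩ := this
      simp only [eval_monomial]
      exact ⟨_, (HasD.const a).mul hw⟩
    induction k with
    | zero => exact ⟨_, by simpa using HasD.const (E := E) 1⟩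
    | succ k ih =>
      obtain ⟨w, hw⟩ := ih
      simp only [pow_succ]
      exact ⟨_, hw.mul hv⟩

theorem ratOff {u : E.Point → K} (hu : Diff u) {S : Set K} {F : K → K} (hF : RatOff S F)
    (hS : ∀ᶠ P in cofinite, u P ∉ S) : Diff (fun P => F (u P)) := by
  obtain ⟨n, m, hm, hn⟩ := hF
  obtain ⟨a, ha⟩ := hu.poly n
  obtain ⟨b, hb⟩ := hu.poly m
  refine ⟨_, (ha.div hb (hS.mono fun P h => hm _ h)).congr ?_ (Eventually.of_forall fun P => rfl)⟩
  filter_upwards [hS] with P h
  rw [← hn _ h, mul_div_assoc, div_self (hm _ h), mul_one]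

end Diff

variable (N : AddSubgroup E.Point) [Fintype N]

theorem ev_translate_notMem (Q : E.Point) :
    ∀ᶠ P : E.Point in cofinite, P + Q ∉ N ∧ P + Q ≠ 0 ∧ px (P + Q) ∉ poleSet N := by
  refine (tendsto_translate Q).eventually (p := fun R => R ∉ N ∧ R ≠ 0 ∧ px R ∉ poleSet N) ?_
  filter_upwards [ev_ne 0, ev_px_notMem (poleSet_finite N)] with R h0 hS
  exact ⟨(px_notMem_iff N h0).mp hS, h0, hS⟩

/-- Chain rule for `velX`. -/
theorem hasD_velX {u w : E.Point → K} (hu : HasD u w)
    (hS : ∀ᶠ P in cofinite, u P ∉ poleSet N) :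
    HasD (fun P => velX N (u P)) (fun P => velX' N (u P) * w P) := by
  have hne : ∀ T ∈ nzero N, ∀ᶠ P in cofinite, u P - px (T : E.Point) ≠ 0 := by
    intro T hT
    filter_upwards [hS] with P h
    exact sub_ne_zero.mpr fun e => h (e ▸ mem_poleSet N T.2 ((mem_nzero N).mp hT))
  have h := hu.add (HasD.sum (nzero N) (fun T hT =>
    ((HasD.const (wv N T)).div (hu.sub (HasD.const (px (T : E.Point)))) (hne T hT)).add
      ((HasD.const (wu N T)).div (hu.sub (HasD.const (px (T : E.Point)))).sq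
        ((hne T hT).mono fun P h => pow_ne_zero 2 h))))
  refine h.congr (Eventually.of_forall fun P => rfl) ?_
  filter_upwards [hS] with P hP
  simp only [velX', sub_mul, one_mul, Finset.sum_mul]
  rw [sub_eq_add_neg, ← Finset.sum_neg_distrib]
  congr 1
  refine Finset.sum_congr rfl fun T hT => ?_
  have hd : u P - px (T : E.Point) ≠ 0 :=
    sub_ne_zero.mpr fun e => hP (e ▸ mem_poleSet N T.2 ((mem_nzero N).mp hT))
  field_simp
  ring

theorem ev_velX'_ne_zero : ∀ᶠ P : E.Point in cofinite, velX' N (px P) ≠ 0 := by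
  have hS := ev_px_notMem (E := E) (poleSet_finite N)
  obtain ⟨v, hv⟩ := Diff.ratOff (⟨_, HasD.px'⟩ : Diff fun P : E.Point => px P) (ratOff_velX' N) hS
  rcases hv.ev_zero_or_ne_zero with h | h
  · exfalso
    obtain ⟨c, hc⟩ := (hasD_velX N HasD.px' hS).const_of_zero (by
      filter_upwards [h] with P hP
      rw [hP, zero_mul])
    have hfin : {x | ¬ (x ≠ 0 ∧ x ∉ poleSet N ∧ velX N x = c)}.Finite := finite_of_ev (E := E) (by
      filter_upwards [hc, hS, ev_px_ne 0] with P a b d
      exact ⟨d, b, a⟩)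
    have := RatOff.eq_of_finite (S := invPoleSet N)
      (F := fun z => 1 + z ^ 2 * (bigV N + bigW N * z + z ^ 2 * remS N z)) (G := fun z => c * z)
      ((RatOff.const 1).add ((RatOff.id'.pow 2).mul (((RatOff.const _).add
        ((RatOff.const _).mul RatOff.id')).add ((RatOff.id'.pow 2).mul (ratOff_remS N)))))
      ((RatOff.const c).mul RatOff.id') (invPoleSet_finite N)
      (B := (fun x : K => x⁻¹) '' {x | ¬ (x ≠ 0 ∧ x ∉ poleSet N ∧ velX N x = c)})
      (hfin.image _)
      (fun z hz => by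
        have hgood : z⁻¹ ≠ 0 ∧ z⁻¹ ∉ poleSet N ∧ velX N z⁻¹ = c := by
          by_contra hh
          exact hz ⟨_, hh, inv_inv z⟩
        obtain ⟨h0, h1, h2⟩ := hgood
        rw [velX_inv N h0 h1, inv_inv] at h2
        rw [← h2]
        have hz0 : z ≠ 0 := fun e => h0 (by rw [e, inv_zero])
        field_simp)
      (x := 0) (zero_notMem_invPoleSet N)
    simp at this
  · exact h

theorem veY_ev_ne_zero : ∀ᶠ P : E.Point in cofinite, veY N P ≠ 0 := by
  filter_upwards [ev_py_ne_zero, ev_velX'_ne_zero N, ev_ne 0, ev_px_notMem (poleSet_finite N)]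
    with P a b c d
  rw [veY_eq N c d]
  exact mul_ne_zero a b

theorem hasD_translate (Q : E.Point) :
    HasD (fun P : E.Point => px (P + Q)) (fun P => 2 * py (P + Q)) ∧
      Diff (fun P : E.Point => py (P + Q)) := by
  rcases eq_or_ne Q 0 with rfl | hQ
  · simp only [add_zero]
    exact ⟨HasD.px', _, HasD.py'⟩
  have hd : ∀ᶠ P : E.Point in cofinite, px P - px Q ≠ 0 :=
    (ev_px_ne (px Q)).mono fun P h => sub_ne_zero.mpr h
  have hl := (HasD.py'.sub (HasD.const (py Q))).div (HasD.px'.sub (HasD.const (px Q))) hd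
  have hx := (hl.sq.sub HasD.px').sub (HasD.const (px Q))
  have hyv := ((hl.mul (hx.sub HasD.px')).add HasD.py').neg
  refine ⟨hx.congr ?_ ?_, _, hyv.congr ?_ (Eventually.of_forall fun P => rfl)⟩
  · filter_upwards [ev_ne 0, ev_px_ne (px Q)] with P h0 hne
    exact (add_coords h0 hQ hne).2.1
  · filter_upwards [ev_ne 0, ev_px_ne (px Q)] with P h0 hne
    obtain ⟨-, ex, ey⟩ := add_coords h0 hQ hne
    rw [ey, ex]
    have s1 := py_sq h0
    have s2 := py_sq hQ
    have hd' : px P - px Q ≠ 0 := sub_ne_zero.mpr hne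
    simp only [cubF, dcubF] at s1 s2 ⊢
    field_simp
    linear_combination (2 * (py P - py Q)) * s1 + (-2 * (py P - py Q)) * s2
  · filter_upwards [ev_ne 0, ev_px_ne (px Q)] with P h0 hne
    obtain ⟨-, ex, ey⟩ := add_coords h0 hQ hne
    rw [ey, ex]

variable {N}

/-- `D X = 2 Y` and `D Y = F'(X)` along every translate. -/
theorem hasD_ve (hE' : IsVeluCurve N E') (hy : ∀ T ∈ N, T ≠ 0 → py T ≠ 0) (Q : E.Point) :
    HasD (fun P : E.Point => veX N (P + Q)) (fun P => 2 * veY N (P + Q)) ∧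
      HasD (fun P : E.Point => veY N (P + Q)) (fun P => dcubF E' (veX N (P + Q))) := by
  obtain ⟨hx1, hy1⟩ := hasD_translate Q
  have hev := ev_translate_notMem N Q
  have hS : ∀ᶠ P : E.Point in cofinite, px (P + Q) ∉ poleSet N := hev.mono fun P h => h.2.2
  have hX : HasD (fun P : E.Point => veX N (P + Q)) (fun P => 2 * veY N (P + Q)) := by
    refine (hasD_velX N hx1 hS).congr ?_ ?_
    · filter_upwards [hev] with P h; exact veX_eq N h.2.1 h.2.2
    · filter_upwards [hev] with P h; rw [veY_eq N h.2.1 h.2.2]; ring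
  refine ⟨hX, ?_⟩
  obtain ⟨a, ha⟩ := hy1
  obtain ⟨b, hb⟩ := Diff.ratOff ⟨_, hx1⟩ (ratOff_velX' N) hS
  obtain ⟨w, hw⟩ : Diff (fun P : E.Point => veY N (P + Q)) := by
    refine ⟨_, (ha.mul hb).congr ?_ (Eventually.of_forall fun P => rfl)⟩
    filter_upwards [hev] with P h; exact veY_eq N h.2.1 h.2.2
  refine hw.congr (Eventually.of_forall fun P => rfl) ?_
  have heq : HasD (fun P : E.Point => veY N (P + Q) ^ 2)
      (fun P => dcubF E' (veX N (P + Q)) * (2 * veY N (P + Q))) := by
    refine (((hX.mul hX).mul hX).add ((HasD.const E'.a₄).mul hX) |>.add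
      (HasD.const E'.a₆)).congr ?_ ?_
    · filter_upwards [hev] with P h
      rw [velu_equation N hE' hy h.1, cubF]; ring
    · exact Eventually.of_forall fun P => by simp only [dcubF]; ring
  filter_upwards [hw.sq.unique heq, (tendsto_translate Q).eventually (veY_ev_ne_zero N)] with P e hne
  exact mul_left_cancel₀ (mul_ne_zero two_ne_zero hne) (by linear_combination -e)

/-- Translating by a point outside `N` changes `X`. -/
theorem veX_translate_ne (hE' : IsVeluCurve N E') (hy : ∀ T ∈ N, T ≠ 0 → py T ≠ 0) {Q : E.Point}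
    (hQ : Q ∉ N) : ∀ᶠ P : E.Point in cofinite, veX N (P + Q) ≠ veX N P := by
  have h0 := (hasD_ve hE' hy 0).1
  simp only [add_zero] at h0
  rcases ((hasD_ve hE' hy Q).1.sub h0).ev_zero_or_ne_zero with h | h
  swap
  · exact h.mono fun P hP e => hP (sub_eq_zero.mpr e)
  exfalso
  have hQ0 : Q ≠ 0 := fun e => hQ (e ▸ N.zero_mem)
  have ht : -Q ≠ 0 := neg_ne_zero.mpr hQ0
  have hxS : px Q ∉ poleSet N := (px_notMem_iff N hQ0).mpr hQ
  have hd : Val (-Q) (fun P => px P - px Q) 0 := by
    simpa using (Val.px' ht).sub (Val.const (px Q) ht)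
  have hz : Val (-Q) (fun P => (px (P + Q))⁻¹) 0 := by
    rcases eq_or_ne (py Q) 0 with hy0 | hy0
    · have hD : Val (-Q) (fun P => px Q * px P + 2 * px Q ^ 2 + E.a₄) (dcubF E (px Q)) := by
        have := (((Val.const (px Q) ht).mul (Val.px' ht)).add
          (Val.const (2 * px Q ^ 2) ht)).add (Val.const E.a₄ ht)
        rw [px_neg] at this
        convert this using 1
        simp only [dcubF]; ring
      have hD0 : dcubF E (px Q) ≠ 0 := by
        obtain ⟨hns, -⟩ := exists_eq_some hQ0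
        rw [Affine.nonsingular_iff'] at hns
        rcases hns.2 with h' | h' <;> simp [hy0, dcubF] at h' ⊢
        intro e; exact h' (by linear_combination -e)
      have := hd.div hD hD0
      rw [zero_div] at this
      refine this.congr ?_
      filter_upwards [ev_px_ne (px Q), ev_ne 0] with P hne hP
      obtain ⟨-, e, -⟩ := add_coords hP hQ0 hne
      have hd' : px P - px Q ≠ 0 := sub_ne_zero.mpr hne
      have s1 := py_sq hP
      have s2 := py_sq hQ0
      simp only [cubF, hy0] at s1 s2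
      rw [e, hy0, sub_zero, ← inv_inv ((px P - px Q) / (px Q * px P + 2 * px Q ^ 2 + E.a₄)),
        inv_div]
      congr 1
      rw [div_pow, s1]
      field_simp
      linear_combination -s2
    · have hU : Val (-Q) (fun P => (py P - py Q) ^ 2 - (px P + px Q) * (px P - px Q) ^ 2)
          ((-py Q - py Q) ^ 2) := by
        simpa using (((Val.py' ht).sub (Val.const (py Q) ht)).pow 2).sub
          (((Val.px' ht).add (Val.const (px Q) ht)).mul (hd.pow 2))
      have hU0 : (-py Q - py Q) ^ 2 ≠ 0 := by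
        refine pow_ne_zero _ ?_
        rw [show -py Q - py Q = (-2) * py Q by ring]
        exact mul_ne_zero (by norm_num) hy0
      have := (hd.pow 2).div hU hU0
      rw [zero_pow two_ne_zero, zero_div] at this
      refine this.congr ?_
      filter_upwards [ev_px_ne (px Q), ev_ne 0] with P hne hP
      obtain ⟨-, e, -⟩ := add_coords hP hQ0 hne
      have hd' : px P - px Q ≠ 0 := sub_ne_zero.mpr hne
      rw [e, inv_eq_one_div]
      field_simp
      ring
  have hl : Val (-Q) (fun P => veX N P * (px (P + Q))⁻¹) (velX N (px Q) * 0) := by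
    refine (((Val.px' ht).ratOff (poleSet_finite N) (ratOff_velX N)
      (by rwa [px_neg])).mul hz).congr ?_ |> fun h => by rwa [px_neg] at h
    filter_upwards [ev_ne 0, ev_px_notMem (poleSet_finite N)] with P hP hS
    rw [veX_eq N hP hS]
  have hr : Val (-Q) (fun P => veX N P * (px (P + Q))⁻¹)
      (1 + (0 : K) ^ 2 * (bigV N + bigW N * 0 + 0 ^ 2 * remS N 0)) := by
    refine ((Val.const 1 ht).add ((hz.pow 2).mul (((Val.const _ ht).add
      ((Val.const _ ht).mul hz)).add ((hz.pow 2).mul (hz.ratOff (invPoleSet_finite N)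
        (ratOff_remS N) (zero_notMem_invPoleSet N)))))).congr ?_
    filter_upwards [h, ev_translate_notMem N Q,
      (tendsto_translate Q).eventually (ev_px_ne 0)] with P e hPQ hx0
    rw [← sub_eq_zero.mp e, veX_eq N hPQ.2.1 hPQ.2.2, velX_inv N hx0 hPQ.2.2]
    field_simp
  simpa using hl.unique hr

variable (N E')

open scoped Classical in
/-- The point `(X(P), Y(P))`, with value `0` where this is undefined. -/
noncomputable def vePt (P : E.Point) : E'.Point :=
  if h : E'.Nonsingular (veX N P) (veY N P) ∧ P ∉ N then .some _ _ h.1 else 0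

variable {N E'}

theorem vePt_add_mem (P : E.Point) {T : E.Point} (hT : T ∈ N) :
    vePt E' N (P + T) = vePt E' N P := by
  unfold vePt
  split_ifs with h1 h2 h2 <;>
    simp_all [veX_add_mem N P hT, veY_add_mem N P hT, N.add_mem_cancel_right hT]

theorem ev_vePt_eq (hE' : IsVeluCurve N E') (hy : ∀ T ∈ N, T ≠ 0 → py T ≠ 0) (Q : E.Point) :
    ∀ᶠ P : E.Point in cofinite, ∃ h : E'.Nonsingular (veX N (P + Q)) (veY N (P + Q)),
      vePt E' N (P + Q) = .some _ _ h ∧
      veY N (P + Q) ^ 2 = cubF E' (veX N (P + Q)) := by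
  haveI := hE'.short
  filter_upwards [ev_translate_notMem N Q, (tendsto_translate Q).eventually (veY_ev_ne_zero N)]
    with P hP hne
  have he := velu_equation N hE' hy hP.1
  have hns : E'.Nonsingular (veX N (P + Q)) (veY N (P + Q)) := by
    rw [Affine.nonsingular_iff']
    refine ⟨equation_short.mpr he, Or.inr ?_⟩
    simp [hne]
  exact ⟨hns, dif_pos ⟨hns, hP.1⟩, he⟩

/-- `φ(P + Q) - φ(P)` is cofinitely constant. -/
theorem exists_const (hE' : IsVeluCurve N E') (hy : ∀ T ∈ N, T ≠ 0 → py T ≠ 0) (Q : E.Point) :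
    ∃ C : E'.Point, ∀ᶠ P : E.Point in cofinite, vePt E' N (P + Q) - vePt E' N P = C := by
  haveI := hE'.short
  by_cases hQ : Q ∈ N
  · exact ⟨0, Eventually.of_forall fun P => by rw [vePt_add_mem P hQ, sub_self]⟩
  obtain ⟨hX1, hY1⟩ := hasD_ve hE' hy Q
  obtain ⟨hX2, hY2⟩ := hasD_ve hE' hy (0 : E.Point)
  simp only [add_zero] at hX2 hY2
  have hne := veX_translate_ne hE' hy hQ
  have h1 := ev_vePt_eq hE' hy Q
  have h2 := ev_vePt_eq hE' hy (0 : E.Point)
  simp only [add_zero] at h2
  have hl := (hY1.add hY2).div (hX1.sub hX2) (hne.mono fun P h => sub_ne_zero.mpr h)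
  have hX3 := (hl.sq.sub hX1).sub hX2
  have hY3 := ((hl.mul (hX3.sub hX1)).add hY1).neg
  obtain ⟨c₁, hc₁⟩ := hX3.const_of_zero (by
    filter_upwards [hne, h1, h2] with P hP ⟨_, _, e1⟩ ⟨_, _, e2⟩
    have hd : veX N (P + Q) - veX N P ≠ 0 := sub_ne_zero.mpr hP
    simp only [cubF, dcubF] at e1 e2 ⊢
    field_simp
    linear_combination -4 * (veY N (P + Q) + veY N P) * (e1 - e2))
  obtain ⟨c₂, hc₂⟩ := hY3.const_of_zero (by
    filter_upwards [hne, h1, h2] with P hP ⟨_, _, e1⟩ ⟨_, _, e2⟩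
    have hd : veX N (P + Q) - veX N P ≠ 0 := sub_ne_zero.mpr hP
    simp only [cubF, dcubF] at e1 e2 ⊢
    field_simp
    linear_combination ((veX N (P + Q) - veX N P) ^ 3 + 6 * (veY N (P + Q) + veY N P) ^ 2
      - (4 * veX N (P + Q) + 2 * veX N P) * (veX N (P + Q) - veX N P) ^ 2) * (e1 - e2))
  obtain ⟨P₀, hP₀⟩ := (hne.and (h1.and (h2.and (hc₁.and hc₂)))).exists
  refine ⟨vePt E' N (P₀ + Q) - vePt E' N P₀, ?_⟩
  have main : ∀ P, veX N (P + Q) ≠ veX N P →
      (∃ h : E'.Nonsingular (veX N (P + Q)) (veY N (P + Q)), vePt E' N (P + Q) = .some _ _ h ∧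
        veY N (P + Q) ^ 2 = cubF E' (veX N (P + Q))) →
      (∃ h : E'.Nonsingular (veX N P) (veY N P), vePt E' N P = .some _ _ h ∧
        veY N P ^ 2 = cubF E' (veX N P)) →
      ((veY N (P + Q) + veY N P) / (veX N (P + Q) - veX N P)) ^ 2 - veX N (P + Q) - veX N P = c₁ →
      -((veY N (P + Q) + veY N P) / (veX N (P + Q) - veX N P) *
        (((veY N (P + Q) + veY N P) / (veX N (P + Q) - veX N P)) ^ 2 - veX N (P + Q) - veX N P
          - veX N (P + Q)) + veY N (P + Q)) = c₂ →
      ∃ h : E'.Nonsingular c₁ c₂, vePt E' N (P + Q) - vePt E' N P = .some _ _ h := by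
    rintro P hP ⟨a, ea, -⟩ ⟨b, eb, -⟩ e1 e2
    obtain ⟨hz, ex, ey⟩ := add_coords (P := Affine.Point.some _ _ a)
      (Q := -Affine.Point.some _ _ b) (Affine.Point.some_ne_zero a)
      (neg_ne_zero.mpr (Affine.Point.some_ne_zero b)) (by simpa using hP)
    obtain ⟨h, e⟩ := exists_eq_some hz
    simp only [px_some, py_some, px_neg, py_neg, sub_neg_eq_add] at ex ey
    have k1 : px (Affine.Point.some _ _ a + -Affine.Point.some _ _ b) = c₁ := ex.trans e1
    have k2 : py (Affine.Point.some _ _ a + -Affine.Point.some _ _ b) = c₂ := by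
      rw [ey, ex]; exact e2
    have hc : E'.Nonsingular c₁ c₂ := k1 ▸ k2 ▸ h
    refine ⟨hc, ?_⟩
    rw [ea, eb, sub_eq_add_neg]
    exact ext_of_coords hz (Affine.Point.some_ne_zero hc) k1 k2
  obtain ⟨hp, ep⟩ := main P₀ hP₀.1 hP₀.2.1 hP₀.2.2.1 hP₀.2.2.2.1 hP₀.2.2.2.2
  filter_upwards [hne, h1, h2, hc₁, hc₂] with P a b c d e
  obtain ⟨hq, eq⟩ := main P a b c d e
  rw [ep, eq]

section Hom

variable (hE' : IsVeluCurve N E') (hy : ∀ T ∈ N, T ≠ 0 → py T ≠ 0)

/-- The quotient map. -/
noncomputable def veluHom : E.Point →+ E'.Point where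
  toFun Q := (exists_const hE' hy Q).choose
  map_zero' := by
    obtain ⟨P, hP⟩ := (exists_const hE' hy (0 : E.Point)).choose_spec.exists
    rw [← hP, add_zero, sub_self]
  map_add' Q Q' := by
    have h₁ := (exists_const hE' hy (Q + Q')).choose_spec
    have h₂ := (exists_const hE' hy Q).choose_spec
    have h₃ := (tendsto_translate Q).eventually (exists_const hE' hy Q').choose_spec
    obtain ⟨P, e₁, e₂, e₃⟩ := (h₁.and (h₂.and h₃)).exists
    rw [← e₁, ← e₂, ← e₃, add_assoc]
    abel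

theorem veluHom_spec (Q : E.Point) :
    ∀ᶠ P : E.Point in cofinite, vePt E' N (P + Q) - vePt E' N P = veluHom hE' hy Q :=
  (exists_const hE' hy Q).choose_spec

theorem veluHom_ker : (veluHom hE' hy).ker = N := by
  ext Q
  rw [AddMonoidHom.mem_ker]
  constructor
  · intro h
    by_contra hQ
    obtain ⟨P, e, ⟨a, ea, -⟩, ⟨b, eb, -⟩, hne⟩ := ((veluHom_spec hE' hy Q).and
      ((ev_vePt_eq hE' hy Q).and ((ev_vePt_eq hE' hy (0 : E.Point)).and
        (veX_translate_ne hE' hy hQ)))).exists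
    simp only [add_zero] at b eb
    rw [h, sub_eq_zero, ea, eb, Affine.Point.some.injEq] at e
    exact hne e.1
  · intro hQ
    obtain ⟨P, hP⟩ := (veluHom_spec hE' hy Q).exists
    rw [← hP, vePt_add_mem P hQ, sub_self]

/-- Compatibility with automorphisms. -/
theorem veluHom_comm (f : E.Point →+ E.Point) (hf : Function.Injective f)
    (g : E'.Point →+ E'.Point) (h : ∀ P, g (vePt E' N P) = vePt E' N (f P)) (Q : E.Point) :
    g (veluHom hE' hy Q) = veluHom hE' hy (f Q) := by
  obtain ⟨P, e, e'⟩ := ((veluHom_spec hE' hy Q).and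
    (hf.tendsto_cofinite.eventually (veluHom_spec hE' hy (f Q)))).exists
  rw [← e, ← e', map_sub, h, h, map_add]

end Hom

theorem py_eq_zero_of_add_self {G : Affine K} [G.IsShortNF] {P : G.Point} (h : P + P = 0) :
    py P = 0 := by
  have hn : -P = P := neg_eq_of_add_eq_zero_left h
  have := congrArg py hn
  rw [py_neg] at this
  linear_combination (-1 / 2 : K) * this

/-- The quotient curve is elliptic. -/
theorem isElliptic_velu (hE' : IsVeluCurve N E') (hy : ∀ T ∈ N, T ≠ 0 → py T ≠ 0) :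
    E'.IsElliptic := by
  haveI := hE'.short
  have hvieta : ∀ {G : Affine K} [G.IsShortNF] {r s t : K}, r + s + t = 0 →
      r * s + r * t + s * t = G.a₄ → -(r * s * t) = G.a₆ →
      G.Δ = 16 * ((r - s) * (r - t) * (s - t)) ^ 2 := by
    intro G _ r s t h1 h2 h3
    rw [WeierstrassCurve.Δ_of_isShortNF, ← h2, ← h3, show t = -r - s by linear_combination h1]
    ring
  obtain ⟨r, hr⟩ : ∃ r, cubF E r = 0 := by
    have hdeg : (X ^ 3 + C E.a₄ * X + C E.a₆ : K[X]).degree ≠ 0 := by
      have h : (X ^ 3 + C E.a₄ * X + C E.a₆ : K[X]).natDegree = 3 := by compute_degree!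
      rw [degree_eq_natDegree (ne_zero_of_natDegree_gt (h.symm ▸ (by norm_num : 0 < 3))), h]
      norm_num
    obtain ⟨r, hr⟩ := IsAlgClosed.exists_root _ hdeg
    exact ⟨r, by simpa [IsRoot, cubF] using hr⟩
  obtain ⟨w, hw⟩ := IsAlgClosed.exists_pow_nat_eq (r ^ 2 - 4 * (r ^ 2 + E.a₄)) (n := 2) two_pos
  obtain ⟨s, hs⟩ : ∃ s, s = (-r + w) / 2 := ⟨_, rfl⟩
  have hq : s ^ 2 + r * s + r ^ 2 + E.a₄ = 0 := by
    rw [hs]; field_simp; linear_combination hw
  have hΔ : E.Δ ≠ 0 := E.isUnit_Δ.ne_zero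
  simp only [cubF] at hr
  rw [hvieta (r := r) (s := s) (t := -r - s) (by ring) (by linear_combination -hq)
    (by linear_combination r * hq - hr)] at hΔ
  simp only [mul_ne_zero_iff, pow_ne_zero_iff two_ne_zero, sub_ne_zero] at hΔ
  obtain ⟨-, ⟨hrs, hrt⟩, hst⟩ := hΔ
  have mk : ∀ e, cubF E e = 0 → ∃ T : E.Point, T ≠ 0 ∧ T + T = 0 ∧ px T = e ∧ py T = 0 := by
    intro e he
    have hns : E.Nonsingular e 0 := Affine.equation_iff_nonsingular.mp
      (equation_short.mpr (by rw [he]; ring))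
    exact ⟨.some e 0 hns, Affine.Point.some_ne_zero _,
      Affine.Point.add_self_of_Y_eq (by simp), rfl, rfl⟩
  obtain ⟨T₁, a1, b1, c1, d1⟩ := mk r (by simp only [cubF]; linear_combination hr)
  obtain ⟨T₂, a2, b2, c2, d2⟩ := mk s (by simp only [cubF]; linear_combination hr + (s - r) * hq)
  obtain ⟨T₃, a3, b3, c3, d3⟩ := mk (-r - s)
    (by simp only [cubF]; linear_combination hr + (-s - 2 * r) * hq)
  let φ := veluHom hE' hy
  have notN : ∀ T : E.Point, T ≠ 0 → T + T = 0 → φ T ≠ 0 := fun T h0 h2 h => by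
    have : T ∈ N := (veluHom_ker hE' hy) ▸ h
    exact hy T this h0 (py_eq_zero_of_add_self h2)
  have dist : ∀ T T' : E.Point, T + T = 0 → T' + T' = 0 → px T ≠ px T' → φ T ≠ φ T' := by
    intro T T' h h' hne e
    refine notN (T - T') (fun h0 => hne (by rw [sub_eq_zero.mp h0])) ?_
      (by rw [map_sub, e, sub_self])
    rw [sub_add_sub_comm, h, h', sub_self]
  have root : ∀ T : E.Point, T ≠ 0 → T + T = 0 →
      φ T ≠ 0 ∧ py (φ T) = 0 ∧ cubF E' (px (φ T)) = 0 := by
    intro T h0 h2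
    have e0 := notN T h0 h2
    have e1 : py (φ T) = 0 := py_eq_zero_of_add_self (by rw [← map_add, h2, map_zero])
    exact ⟨e0, e1, by rw [← py_sq e0, e1]; ring⟩
  obtain ⟨z1, y1, f1⟩ := root T₁ a1 b1
  obtain ⟨z2, y2, f2⟩ := root T₂ a2 b2
  obtain ⟨z3, y3, f3⟩ := root T₃ a3 b3
  have n12 : px (φ T₁) ≠ px (φ T₂) := fun e =>
    dist T₁ T₂ b1 b2 (by rw [c1, c2]; exact hrs) (ext_of_coords z1 z2 e (y1.trans y2.symm))
  have n13 : px (φ T₁) ≠ px (φ T₃) := fun e =>
    dist T₁ T₃ b1 b3 (by rw [c1, c3]; exact hrt) (ext_of_coords z1 z3 e (y1.trans y3.symm))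
  have n23 : px (φ T₂) ≠ px (φ T₃) := fun e =>
    dist T₂ T₃ b2 b3 (by rw [c2, c3]; exact hst) (ext_of_coords z2 z3 e (y2.trans y3.symm))
  generalize px (φ T₁) = α at *
  generalize px (φ T₂) = β at *
  generalize px (φ T₃) = γ at *
  simp only [cubF] at f1 f2 f3
  have g12 : α ^ 2 + α * β + β ^ 2 + E'.a₄ = 0 :=
    (mul_eq_zero.mp (show (α - β) * (α ^ 2 + α * β + β ^ 2 + E'.a₄) = 0 by
      linear_combination f1 - f2)).resolve_left (sub_ne_zero.mpr n12)
  have g13 : α ^ 2 + α * γ + γ ^ 2 + E'.a₄ = 0 :=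
    (mul_eq_zero.mp (show (α - γ) * (α ^ 2 + α * γ + γ ^ 2 + E'.a₄) = 0 by
      linear_combination f1 - f3)).resolve_left (sub_ne_zero.mpr n13)
  have hsum : α + β + γ = 0 :=
    (mul_eq_zero.mp (show (β - γ) * (α + β + γ) = 0 by
      linear_combination g12 - g13)).resolve_left (sub_ne_zero.mpr n23)
  refine WeierstrassCurve.isElliptic_iff E' |>.mpr ?_
  rw [hvieta (r := α) (s := β) (t := γ) hsum (by linear_combination (α + β) * hsum - g12)
    (by linear_combination (-(α * β)) * hsum + α * g12 - f1)]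
  refine isUnit_iff_ne_zero.mpr (mul_ne_zero (by norm_num) (pow_ne_zero _ ?_))
  exact mul_ne_zero (mul_ne_zero (sub_ne_zero.mpr n12) (sub_ne_zero.mpr n13))
    (sub_ne_zero.mpr n23)

end FLTA.EllIsogeny.Velu
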