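import Mathlib.Algebra.Polynomial.Roots
import Mathlib.Algebra.Polynomial.Degree.Lemmas
import Mathlib.FieldTheory.IsAlgClosed.Basic
import Mathlib.Tactic.LinearCombination

/-!
Rational functions of one variable with poles in a prescribed finite set.
-/

set_option autoImplicit false

open Polynomial

namespace FLTA.EllIsogeny.Velu

variable {K : Type*} [Field K] {S : Set K}

/-- `F` agrees off `S` with a rational function whose poles lie in `S`. -/
def RatOff (S : Set K) (F : K → K) : Prop :=
  ∃ n m : K[X], (∀ x, x ∉ S → m.eval x ≠ 0) ∧ ∀ x, x ∉ S → F x * m.eval x = n.eval x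

namespace RatOff

theorem const (c : K) : RatOff S (fun _ => c) :=
  ⟨C c, 1, by simp, by simp⟩

theorem id' : RatOff S (fun x => x) :=
  ⟨X, 1, by simp, by simp⟩

theorem congr {F G : K → K} (hF : RatOff S F) (h : ∀ x, x ∉ S → G x = F x) : RatOff S G := by
  obtain ⟨n, m, hm, hn⟩ := hF
  exact ⟨n, m, hm, fun x hx => by rw [h x hx, hn x hx]⟩

theorem add {F G : K → K} (hF : RatOff S F) (hG : RatOff S G) : RatOff S (fun x => F x + G x) := by
  obtain ⟨n, m, hm, hn⟩ := hF
  obtain ⟨n', m', hm', hn'⟩ := hG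
  refine ⟨n * m' + n' * m, m * m', fun x hx => by simp [hm x hx, hm' x hx], fun x hx => ?_⟩
  simp only [eval_mul, eval_add]
  linear_combination m'.eval x * hn x hx + m.eval x * hn' x hx

theorem mul {F G : K → K} (hF : RatOff S F) (hG : RatOff S G) : RatOff S (fun x => F x * G x) := by
  obtain ⟨n, m, hm, hn⟩ := hF
  obtain ⟨n', m', hm', hn'⟩ := hG
  refine ⟨n * n', m * m', fun x hx => by simp [hm x hx, hm' x hx], fun x hx => ?_⟩
  simp only [eval_mul]
  rw [← hn x hx, ← hn' x hx]
  ring

theorem neg {F : K → K} (hF : RatOff S F) : RatOff S (fun x => -F x) :=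
  ((const (-1)).mul hF).congr fun x _ => by simp

theorem sub {F G : K → K} (hF : RatOff S F) (hG : RatOff S G) : RatOff S (fun x => F x - G x) :=
  (hF.add hG.neg).congr fun x _ => by ring

theorem pow {F : K → K} (hF : RatOff S F) (k : ℕ) : RatOff S (fun x => F x ^ k) := by
  induction k with
  | zero => exact (const 1).congr fun x _ => by simp
  | succ k ih => exact (ih.mul hF).congr fun x _ => by rw [pow_succ]

theorem sum {ι : Type*} (s : Finset ι) {F : ι → K → K} (h : ∀ i ∈ s, RatOff S (F i)) :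
    RatOff S (fun x => ∑ i ∈ s, F i x) := by
  classical
  induction s using Finset.induction with
  | empty => exact (const 0).congr fun x _ => by simp
  | insert i s hi ih =>
    exact ((h i (Finset.mem_insert_self _ _)).add
      (ih fun j hj => h j (Finset.mem_insert_of_mem hj))).congr fun x _ => by
        simp [Finset.sum_insert hi]

/-- A quotient by a polynomial with roots in `S`. -/
theorem div_poly {F : K → K} (hF : RatOff S F) {q : K[X]} (hq : ∀ x, x ∉ S → q.eval x ≠ 0) :
    RatOff S (fun x => F x / q.eval x) := by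
  obtain ⟨n, m, hm, hn⟩ := hF
  refine ⟨n, m * q, fun x hx => by simp [hm x hx, hq x hx], fun x hx => ?_⟩
  rw [eval_mul, ← hn x hx]
  field_simp [hq x hx]

theorem div_linear_pow {F : K → K} (hF : RatOff S F) {c : K} (hc : c ∈ S) (k : ℕ) :
    RatOff S (fun x => F x / (x - c) ^ k) :=
  (hF.div_poly (q := (X - C c) ^ k) fun x hx => by
    simp only [eval_pow, eval_sub, eval_X, eval_C]
    exact pow_ne_zero _ (sub_ne_zero.mpr fun h => hx (h ▸ hc))).congr fun x _ => by simp

/-- Coprime representation. -/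
theorem exists_coprime {F : K → K} (hF : RatOff S F) (hS : S.Finite) [Infinite K] :
    ∃ n m : K[X], IsCoprime n m ∧ (∀ x, x ∉ S → m.eval x ≠ 0) ∧
      ∀ x, x ∉ S → F x * m.eval x = n.eval x := by
  classical
  obtain ⟨n, m, hm, hn⟩ := hF
  obtain ⟨x₀, hx₀⟩ := hS.infinite_compl.nonempty
  have hm0 : m ≠ 0 := fun h => hm x₀ hx₀ (by simp [h])
  obtain ⟨n', m', g, hg, hun, hn', hm'⟩ :
      ∃ n' m' g : K[X], g ≠ 0 ∧ IsCoprime n' m' ∧ n = g * n' ∧ m = g * m' := by
    have hg : gcd n m ≠ 0 := fun h => hm0 ((gcd_eq_zero_iff _ _).mp h).2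
    obtain ⟨n', hn'⟩ := gcd_dvd_left n m
    obtain ⟨m', hm'⟩ := gcd_dvd_right n m
    refine ⟨n', m', gcd n m, hg, ?_, hn', hm'⟩
    obtain ⟨a, b, hab⟩ := exists_gcd_eq_mul_add_mul n m
    refine ⟨a, b, mul_left_cancel₀ hg ?_⟩
    calc gcd n m * (a * n' + b * m') = (gcd n m * n') * a + (gcd n m * m') * b := by ring
      _ = n * a + m * b := by rw [← hn', ← hm']
      _ = gcd n m * 1 := by rw [mul_one, ← hab]
  refine ⟨n', m', hun, fun x hx h => hm x hx (by simp [hm', h]), fun x hx => ?_⟩
  have hgx : g.eval x ≠ 0 := fun h => hm x hx (by simp [hm', h])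
  have := hn x hx
  rw [hn', hm', eval_mul, eval_mul] at this
  exact mul_left_cancel₀ hgx (by linear_combination this)

/-- Two such functions agreeing off a finite set agree off `S`. -/
theorem eq_of_finite [Infinite K] {F G : K → K} (hF : RatOff S F) (hG : RatOff S G)
    (hS : S.Finite) {B : Set K} (hB : B.Finite) (h : ∀ x, x ∉ B → F x = G x) {x : K}
    (hx : x ∉ S) : F x = G x := by
  obtain ⟨n, m, hm, hn⟩ := hF.sub hG
  have hn0 : n = 0 := by
    apply Polynomial.eq_zero_of_infinite_isRoot
    refine ((hB.union hS).infinite_compl).mono fun z hz => ?_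
    rw [Set.mem_compl_iff, Set.mem_union, not_or] at hz
    simp [IsRoot, ← hn z hz.2, h z hz.1]
  have := hn x hx
  rw [hn0, eval_zero, mul_eq_zero, sub_eq_zero] at this
  exact this.resolve_right (hm x hx)

end RatOff

end FLTA.EllIsogeny.Velu
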