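import Fermat.Agent.EllIsogeny.Velu.Basic

/-!
Values at a point of functions given by polynomials in `x`, `y` at cofinitely many points.
-/

set_option autoImplicit false
set_option linter.unusedSectionVars false
set_option linter.deprecated false

open Polynomial WeierstrassCurve Filter

namespace FLTA.EllIsogeny.Velu

variable {K : Type*} [Field K] {E : Affine K}

/-- The value of `g(x) + h(x) y` at a point. -/
noncomputable def pairEval (g h : K[X]) (P : E.Point) : K := g.eval (px P) + h.eval (px P) * py P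

/-- `g² - h² f`, the norm of `g(x) + h(x) y`. -/
noncomputable def pairNorm (E : Affine K) (g h : K[X]) : K[X] :=
  g ^ 2 - h ^ 2 * (X ^ 3 + C E.a₄ * X + C E.a₆)

variable [E.IsShortNF]

theorem pairNorm_eval {g h : K[X]} {P : E.Point} (hP : P ≠ 0) :
    (pairNorm E g h).eval (px P) = pairEval g h P * pairEval g (-h) P := by
  have := py_sq hP
  simp only [cubF] at this
  simp only [pairNorm, pairEval, eval_sub, eval_mul, eval_pow, eval_add, eval_C, eval_X, eval_neg]
  linear_combination (h.eval (px P)) ^ 2 * this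

theorem pairEval_mul {g h g' h' : K[X]} {P : E.Point} (hP : P ≠ 0) :
    pairEval (g * g' + h * h' * (X ^ 3 + C E.a₄ * X + C E.a₆)) (g * h' + h * g') P
      = pairEval g h P * pairEval g' h' P := by
  have := py_sq hP
  simp only [cubF] at this
  simp only [pairEval, eval_mul, eval_pow, eval_add, eval_C, eval_X]
  linear_combination -(h.eval (px P) * h'.eval (px P)) * this

variable [DecidableEq K] [IsAlgClosed K] [CharZero K] [E.IsElliptic]

theorem pairEval_ev_ne_zero {g h : K[X]} (hgh : ¬(g = 0 ∧ h = 0)) :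
    ∀ᶠ P : E.Point in cofinite, pairEval g h P ≠ 0 := by
  have hN : pairNorm E g h ≠ 0 := by
    intro hN
    apply hgh
    have hev : ∀ᶠ P : E.Point in cofinite, (g.eval (px P) + h.eval (px P) * py P) *
        (g.eval (px P) + (-h).eval (px P) * py P) = 0 := by
      filter_upwards [ev_ne 0] with P hP
      have := pairNorm_eval (g := g) (h := h) hP
      rw [hN] at this
      simpa [pairEval] using this.symm
    by_contra hgh'
    have hdq : (X ^ 3 + C E.a₄ * X + C E.a₆ : K[X]).natDegree = 3 := by compute_degree!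
    have hh : h ≠ 0 := by
      rintro rfl
      simp [pairNorm] at hN
      exact hgh' ⟨hN, rfl⟩
    have hq : (X ^ 3 + C E.a₄ * X + C E.a₆ : K[X]) ≠ 0 :=
      ne_zero_of_natDegree_gt (hdq.symm ▸ (by norm_num : 0 < 3))
    have := congrArg natDegree (sub_eq_zero.mp hN)
    rw [natDegree_mul (pow_ne_zero _ hh) hq, natDegree_pow, natDegree_pow, hdq] at this
    omega
  filter_upwards [ev_px_notMem (E := E) (Polynomial.finite_setOf_isRoot hN), ev_ne 0]
    with P hP hP0 h0
  exact hP (show (pairNorm E g h).eval (px P) = 0 by rw [pairNorm_eval hP0, h0, zero_mul])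

/-- A function that is a polynomial in `x` and `y` at every affine point. -/
def PolF (u : E.Point → K) : Prop :=
  ∃ g h : K[X], ∀ P : E.Point, P ≠ 0 → u P = pairEval g h P

namespace PolF

theorem mk' (g h : K[X]) : PolF (E := E) (pairEval g h) := ⟨g, h, fun _ _ => rfl⟩

theorem const (c : K) : PolF (fun _ : E.Point => c) := ⟨C c, 0, fun P _ => by simp [pairEval]⟩

theorem px' : PolF (fun P : E.Point => px P) := ⟨X, 0, fun P _ => by simp [pairEval]⟩

theorem py' : PolF (fun P : E.Point => py P) := ⟨0, 1, fun P _ => by simp [pairEval]⟩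

theorem add {u v : E.Point → K} (hu : PolF u) (hv : PolF v) : PolF (fun P => u P + v P) := by
  obtain ⟨g, h, e⟩ := hu
  obtain ⟨g', h', e'⟩ := hv
  exact ⟨g + g', h + h', fun P hP => by beta_reduce; rw [e P hP, e' P hP]; simp [pairEval]; ring⟩

theorem mul {u v : E.Point → K} (hu : PolF u) (hv : PolF v) : PolF (fun P => u P * v P) := by
  obtain ⟨g, h, e⟩ := hu
  obtain ⟨g', h', e'⟩ := hv
  exact ⟨_, _, fun P hP => by beta_reduce; rw [e P hP, e' P hP, ← pairEval_mul hP]⟩

theorem neg {u : E.Point → K} (hu : PolF u) : PolF (fun P => -u P) := by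
  obtain ⟨g, h, e⟩ := hu
  exact ⟨-g, -h, fun P hP => by beta_reduce; rw [e P hP]; simp [pairEval]; ring⟩

theorem eq_zero_of_ev {u : E.Point → K} (hu : PolF u) (hev : ∀ᶠ P in cofinite, u P = 0)
    {P : E.Point} (hP : P ≠ 0) : u P = 0 := by
  obtain ⟨g, h, e⟩ := hu
  obtain ⟨rfl, rfl⟩ := poly_eq_zero_of_ev (E := E) (g := g) (h := h) (by
    filter_upwards [hev, ev_ne 0] with Q hQ hQ0
    rw [← hQ, e Q hQ0]; rfl)
  rw [e P hP]; simp [pairEval]

theorem ev_ne_zero {u : E.Point → K} (hu : PolF u) {T : E.Point} (hT : T ≠ 0) (h : u T ≠ 0) :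
    ∀ᶠ P in cofinite, u P ≠ 0 := by
  obtain ⟨g, h', e⟩ := hu
  have hgh : ¬(g = 0 ∧ h' = 0) := by
    rintro ⟨rfl, rfl⟩
    exact h (by rw [e T hT]; simp [pairEval])
  filter_upwards [pairEval_ev_ne_zero (E := E) hgh, ev_ne 0] with P hP hP0
  rwa [e P hP0]

end PolF

/-- `u` has value `c` at the point `T`. -/
def Val (T : E.Point) (u : E.Point → K) (c : K) : Prop :=
  T ≠ 0 ∧ ∃ n d : E.Point → K, PolF n ∧ PolF d ∧ d T ≠ 0 ∧ n T = c * d T ∧
    ∀ᶠ P in cofinite, u P * d P = n P

namespace Val

variable {T : E.Point} {u v : E.Point → K} {c c' : K}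

theorem unique (h : Val T u c) (h' : Val T u c') : c = c' := by
  obtain ⟨hT, n, d, hn, hd, hdT, hnT, hev⟩ := h
  obtain ⟨-, n', d', hn', hd', hdT', hnT', hev'⟩ := h'
  have hp := ((hn.mul hd').add (hn'.mul hd).neg).eq_zero_of_ev (P := T) (by
    filter_upwards [hev, hev'] with P e e'
    rw [← e, ← e']; ring) hT
  rw [hnT, hnT'] at hp
  exact mul_right_cancel₀ (mul_ne_zero hdT hdT') (by linear_combination hp)

theorem congr (h : Val T u c) (e : ∀ᶠ P in cofinite, v P = u P) : Val T v c := by
  obtain ⟨hT, n, d, hn, hd, hdT, hnT, hev⟩ := h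
  refine ⟨hT, n, d, hn, hd, hdT, hnT, ?_⟩
  filter_upwards [hev, e] with P h1 h2
  rw [h2, h1]

theorem of_polF (hu : PolF u) (hT : T ≠ 0) : Val T u (u T) :=
  ⟨hT, u, fun _ => 1, hu, PolF.const 1, one_ne_zero, by simp, Eventually.of_forall fun P => by simp⟩

theorem const (a : K) (hT : T ≠ 0) : Val T (fun _ => a) a := of_polF (PolF.const a) hT

theorem px' (hT : T ≠ 0) : Val T (fun P => px P) (px T) := of_polF PolF.px' hT

theorem py' (hT : T ≠ 0) : Val T (fun P => py P) (py T) := of_polF PolF.py' hT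

theorem add (h : Val T u c) (h' : Val T v c') : Val T (fun P => u P + v P) (c + c') := by
  obtain ⟨hT, n, d, hn, hd, hdT, hnT, hev⟩ := h
  obtain ⟨-, n', d', hn', hd', hdT', hnT', hev'⟩ := h'
  refine ⟨hT, _, _, (hn.mul hd').add (hn'.mul hd), hd.mul hd', mul_ne_zero hdT hdT',
    by rw [hnT, hnT']; ring, ?_⟩
  filter_upwards [hev, hev'] with P e e'
  rw [← e, ← e']; ring

theorem mul (h : Val T u c) (h' : Val T v c') : Val T (fun P => u P * v P) (c * c') := by
  obtain ⟨hT, n, d, hn, hd, hdT, hnT, hev⟩ := h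
  obtain ⟨-, n', d', hn', hd', hdT', hnT', hev'⟩ := h'
  refine ⟨hT, _, _, hn.mul hn', hd.mul hd', mul_ne_zero hdT hdT',
    by rw [hnT, hnT']; ring, ?_⟩
  filter_upwards [hev, hev'] with P e e'
  rw [← e, ← e']; ring

theorem sub (h : Val T u c) (h' : Val T v c') : Val T (fun P => u P - v P) (c - c') := by
  have := h.add ((const (-1) h.1).mul h')
  rw [show c + -1 * c' = c - c' by ring] at this
  exact this.congr (Eventually.of_forall fun P => by ring)

theorem pow (h : Val T u c) (k : ℕ) : Val T (fun P => u P ^ k) (c ^ k) := by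
  induction k with
  | zero => simpa using const 1 h.1
  | succ k ih => simpa only [pow_succ] using ih.mul h

theorem ev_ne_zero (h : Val T u c) (hc : c ≠ 0) : ∀ᶠ P in cofinite, u P ≠ 0 := by
  obtain ⟨hT, n, d, hn, hd, hdT, hnT, hev⟩ := h
  filter_upwards [hev, hn.ev_ne_zero hT (by rw [hnT]; exact mul_ne_zero hc hdT)] with P e hP h0
  exact hP (by rw [← e, h0, zero_mul])

theorem inv (h : Val T u c) (hc : c ≠ 0) : Val T (fun P => (u P)⁻¹) c⁻¹ := by
  have hne := h.ev_ne_zero hc
  obtain ⟨hT, n, d, hn, hd, hdT, hnT, hev⟩ := h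
  refine ⟨hT, d, n, hd, hn, by rw [hnT]; exact mul_ne_zero hc hdT,
    by rw [hnT]; field_simp, ?_⟩
  filter_upwards [hev, hne] with P e hP
  rw [← e]; field_simp

theorem div (h : Val T u c) (h' : Val T v c') (hc : c' ≠ 0) :
    Val T (fun P => u P / v P) (c / c') := by
  simpa only [div_eq_mul_inv] using h.mul (h'.inv hc)

theorem poly (h : Val T u c) (p : K[X]) : Val T (fun P => p.eval (u P)) (p.eval c) := by
  induction p using Polynomial.induction_on' with
  | add p q hp hq => simpa only [eval_add] using hp.add hq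
  | monomial k a => simpa only [eval_monomial] using (const a h.1).mul (h.pow k)

theorem ratOff (h : Val T u c) {S : Set K} (hS : S.Finite) {F : K → K} (hF : RatOff S F)
    (hc : c ∉ S) : Val T (fun P => F (u P)) (F c) := by
  obtain ⟨n, m, hm, hn⟩ := hF
  have hq := (h.poly n).div (h.poly m) (hm c hc)
  rw [← hn c hc, mul_div_assoc, div_self (hm c hc), mul_one] at hq
  refine hq.congr ?_
  have hS' : ∀ᶠ P in cofinite, ∀ a ∈ S, u P ≠ a := by
    rw [hS.eventually_all]
    intro a ha
    filter_upwards [(h.sub (const a h.1)).ev_ne_zero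
      (sub_ne_zero.mpr fun e => hc (e ▸ ha))] with P hP
    exact sub_ne_zero.mp hP
  filter_upwards [hS'] with P hP
  have hu : u P ∉ S := fun hu => hP _ hu rfl
  rw [← hn _ hu, mul_div_assoc, div_self (hm _ hu), mul_one]

end Val

end FLTA.EllIsogeny.Velu
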